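import Mathlib
import Fermat.Agent.S18.Core.StarBundle
import Fermat.Agent.S18.Core.StarTop
import Fermat.Agent.S18.Core.ChartsInst
import Fermat.Agent.S18.Inst.Bundle
import Fermat.Agent.S18.Gauss.Concrete
import Fermat.Agent.S18.Gauss.Adapter
import Fermat.Agent.S18.Trans.LiesOver

/-!
# S18 (T3, level-generic): the bundle over a number field from a coordinate datum

`L₁ ⊆ ℚ̄` a number field, `R₁ = A ∩ L₁`, `F = laurentBaseChange L₁ (modularFunctionFieldFull N)`,
`ℓ ∤ N`, `ℓ ∤ m`.  From

* `hφ` : `F ⊆ L₁((q))` is scalable for `R₁` (Gauss valuation subring `O`, residue map `ρ`);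
* `hcd : CoordData R₁ π O t` for a coordinate `t ∈ F` (INST layer);
* `hloc0`, `hloc1` : `LocalOK` for all `f` on the two charts of `t` (blocks A + CUSP)

we get `StarBundle.Bundle A L₁ N m`.  `bundle4`, `bundle9` are instantiations.
-/

set_option autoImplicit false

open HahnSeries ModularCurve AlgebraicCurve

namespace Fermat.Agent.S18.Final.BundleOf

open Fermat.Agent.S18.Descent Fermat.Agent.S18.Gauss.Residue Fermat.Agent.S18.Gauss.Basic
  Fermat.Agent.S18.Core.Charts Fermat.Agent.S18.Core.StarAbstract Fermat.Agent.S18.Core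
  Fermat.Agent.S18.Inst.Bundle Fermat.Agent.S18.Trans Fermat.Agent.S18.Core.StarBundle
  IntermediateField

set_option synthInstance.maxHeartbeats 400000

local notation "Kb" => AlgebraicClosure ℚ

section Restrict

variable {K : Type*} [Field K] (A : ValuationSubring K) (L : Type*) [Field L] [Algebra L K]

/-- the restriction of `A` to a subfield lies over the same prime. -/
theorem liesOverPrime_restrict {ℓ : ℕ} (hA : A.LiesOverPrime ℓ) :
    (restrict A L).LiesOverPrime ℓ := by
  have hmem : ((ℓ : ℕ) : L) ∈ restrict A L := by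
    rw [Descent.mem_restrict, map_natCast]
    exact LiesOver.natCast_mem hA
  show ((ℓ : ℕ) : L) ∈ (restrict A L).nonunits
  rw [ValuationSubring.mem_nonunits_iff_exists_mem_maximalIdeal]
  refine ⟨hmem, ?_⟩
  rw [IsLocalRing.mem_maximalIdeal, mem_nonunits_iff]
  intro hu
  have hu' : IsUnit (restrictIncl A L ⟨(ℓ : L), hmem⟩) := hu.map _
  have hA' : ((ℓ : ℕ) : K) ∈ A.nonunits := hA
  rw [ValuationSubring.mem_nonunits_iff_exists_mem_maximalIdeal] at hA'
  obtain ⟨h1, h2⟩ := hA'
  rw [IsLocalRing.mem_maximalIdeal, mem_nonunits_iff] at h2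
  apply h2
  convert hu' using 1
  apply Subtype.ext
  simp

end Restrict

variable {ℓ : ℕ} [Fact ℓ.Prime] (A : ValuationSubring Kb) (hA : A.LiesOverPrime ℓ)
  (L₁ : IntermediateField ℚ Kb) [FiniteDimensional ℚ L₁] (N m : ℕ) [NeZero N]

local notation "FL" => laurentBaseChange L₁ (modularFunctionFieldFull N)
local notation "R1" => restrict A L₁

include hA in
/-- **(T3), level-generic.** -/
theorem bundle_of_coordData (hℓN : ¬ ℓ ∣ N) (hℓm : ¬ ℓ ∣ m)
    (hφ : Scalable R1 ((FL).val : FL →+* LaurentSeries L₁))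
    {π : R1} {t : FL} (hcd : CoordData R1 π (gaussSubring hφ) t)
    (hloc0 : ∀ f : FL, LocalOK (B0 R1 t) ⟨algebraMap R1 FL π, algebraMap_mem_B0 π⟩ f)
    (hloc1 : ∀ f : FL, LocalOK (B1 R1 t) ⟨algebraMap R1 FL π, algebraMap_mem_B0 π⟩ f) :
    Bundle A L₁ N m := by
  classical
  have hℓ0 : ℓ ≠ 0 := (Fact.out : ℓ.Prime).ne_zero
  haveI : IsDiscreteValuationRing R1 :=
    isDiscreteValuationRing_restrict_of_liesOver A hℓ0 hA L₁
  have hA1 : (R1).LiesOverPrime ℓ := liesOverPrime_restrict A L₁ hA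
  haveI : CharP (IsLocalRing.ResidueField R1) ℓ := LiesOver.charP_residueField hA1
  have hG := Fermat.Agent.S18.Gauss.Adapter.isGaussRed_val hφ
  refine ⟨gaussSubring hφ, resMap hφ, ?_, ?_, ?_, ?_⟩
  · intro z h
    exact ⟨hG.mem_of_integral z h, hG.map_integral z h _⟩
  · intro x
    exact (Fermat.Agent.S18.Inst.GaussChart.valuation_lt_one_iff hφ x).symm
  · intro g hg
    have hr := Fermat.Agent.S18.Gauss.Concrete.range_eq (L := L₁) (M := N) hG hℓN
    have : g ∈ Set.range (resMap hφ) := by rw [hr]; exact hg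
    exact this
  · have hsep := hcd.separable
    have halg := hcd.algebraic
    haveI := ChartsInst.isNoetherianRing_B0 hcd.good L₁⟮t⟯ rfl hcd.finite hsep
    haveI := ChartsInst.isNoetherianRing_B1 hcd.good L₁⟮t⟯ rfl hcd.finite hsep
    haveI := ChartsInst.isFractionRing_B0 hcd.good L₁⟮t⟯ rfl halg hcd.uniq
    haveI := ChartsInst.isFractionRing_B1 hcd.good L₁⟮t⟯ rfl halg hcd.uniq
    have hm : IsUnit ((m : ℕ) : R1) := by
      have h1 := LiesOver.valuation_natCast_eq_one hA1 hℓm
      have h2 : (R1).valuation (((m : ℕ) : R1) : L₁) = 1 := by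
        simpa using h1
      exact ((R1).valuation_eq_one_iff _).mpr h2
    intro f hf hdiv
    exact StarTop.hstar_of_charts hcd.good L₁⟮t⟯ rfl hcd.finite hsep hcd.uniq hcd.intClosed
      hcd.resClosed hm hloc0 hloc1 f hf hdiv

end Fermat.Agent.S18.Final.BundleOf
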