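import Fermat.Agent.S18.Final.Cover
import Fermat.Agent.S18.Cusp.TheoremN

/-!
# S18, final plumbing: from the Kummer instances at the cusps to `hstar`

Generic (level-independent) assembly on top of `Final/Cover` and `Cusp/TheoremN`:

* chart `B0 = B^t`: one polynomial cover element `G0 i (t)` per finite cusp value, with a
  partition of unity `∑ c0 i * G0 i = 1` in `R[X]`, and for each `i` the statement `hloc0 i`
  in the shape of the conclusion of `TheoremN.hloc_of_kummer`;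
* chart `B1 = B^{1/t}`: the cover `{u, Ginf (u)}`, `u = 1/t`, with `cX * X + cinf * Ginf = 1`;
  the statement for `Ginf` is `TheoremN.hloc_of_kummer` at `τ := t⁻¹`, the one for `u` itself is
  derived here from `TheoremN.hloc_B1_tau_inv` and the normality of the image of `B0`.

Conclusion: `LocalOK` on both charts for every `f`, and `hstar` (the 4th conjunct of the
top-level `Bundle`).
-/

open Polynomial IntermediateField

namespace Fermat.Agent.S18.Final.Cusps

open Fermat.Agent.S18.Core.Charts Fermat.Agent.S18.Core Fermat.Agent.S18.Cusp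
open Fermat.Agent.S18.Cusp.ChartLocalOK Fermat.Agent.S18.Final.Cover AlgebraicCurve

set_option linter.unusedSectionVars false
set_option linter.style.haveILetI false

variable {R L F : Type*} [CommRing R] [IsDomain R] [IsDiscreteValuationRing R]
  [Field L] [Field F] [Algebra R L] [IsFractionRing R L] [Algebra L F] [Algebra R F]
  [IsScalarTower R L F] {π : R} {O : ValuationSubring F} {τ : F} {E : Type*} [Field E]
  [Algebra (IsLocalRing.ResidueField R) E]

theorem polyToB1_X : polyToB1 R τ X = ⟨τ⁻¹, tau_inv_mem_B1⟩ :=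
  Subtype.ext (by rw [coe_polyToB1, aeval_X])

theorem polyToB0_X : polyToB0 R τ X = ⟨τ, tau_mem_B0⟩ :=
  Subtype.ext (by rw [coe_polyToB0, aeval_X])

/-- The image of the chart `B0` is integrally closed in `E` (all of `E`), from the polynomial
cover. -/
theorem mem_range_resB0_of_polyCover (h : GoodCoord π O τ) (ρ : ↥O →+* E)
    {ι : Type*} [Fintype ι] (G c : ι → R[X]) (hG : ∑ i, c i * G i = 1)
    (hloc : ∀ i, ∀ z : E, IsIntegral (resB0 h ρ).range z →
      ∃ (k : ℕ) (b : ↥(B0 R τ)),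
        resB0 h ρ ⟨aeval τ (G i), aeval_mem_B0 (G i)⟩ ^ k * z = resB0 h ρ b)
    (z : E) (hz : IsIntegral (resB0 h ρ).range z) : ∃ b : ↥(B0 R τ), resB0 h ρ b = z := by
  refine TheoremN.mem_range_of_cover (resB0 h ρ) (fun i => polyToB0 R τ (G i)) ?_ hloc z hz
  refine span_rangeRestrict_eq_top (resB0 h ρ) _ Finset.univ (fun i => polyToB0 R τ (c i)) ?_
  have : ∑ i, polyToB0 R τ (c i) * polyToB0 R τ (G i) = 1 := by
    simp only [← map_mul, ← map_sum, hG, map_one]
  rw [this, map_one]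

/-- **`LocalOK` on both charts from the Kummer instances at the cusps.** -/
theorem localOK_of_cusps (h : GoodCoord π O τ) (K : IntermediateField L F) (hK : K = L⟮τ⟯)
    (halg : Algebra.IsAlgebraic K F)
    (huniq : ∀ O'' : ValuationSubring F,
      O''.comap (algebraMap K F) = O.comap (algebraMap K F) → O'' = O)
    [IsNoetherianRing ↥(B0 R τ)] [IsNoetherianRing ↥(B1 R τ)]
    (ρ : ↥O →+* E) (hρ : ∀ x : ↥O, ρ x = 0 ↔ O.valuation (x : F) < 1)
    (hρR : ∀ r : R, ρ ⟨algebraMap R F r, h.algebraMap_mem r⟩ =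
      algebraMap (IsLocalRing.ResidueField R) E (IsLocalRing.residue R r))
    {ι0 : Type*} [Fintype ι0] (G0 c0 : ι0 → R[X]) (hG0 : ∑ i, c0 i * G0 i = 1)
    (hloc0 : ∀ i, ∀ z : E, IsIntegral (resB0 h ρ).range z →
      ∃ (k : ℕ) (b : ↥(B0 R τ)),
        resB0 h ρ ⟨aeval τ (G0 i), aeval_mem_B0 (G0 i)⟩ ^ k * z = resB0 h ρ b)
    (Ginf cX cinf : R[X]) (hG1 : cX * X + cinf * Ginf = 1)
    (hlocinf : ∀ z : E, IsIntegral (resB1 h ρ).range z →
      ∃ (k : ℕ) (b : ↥(B1 R τ)),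
        resB1 h ρ ⟨aeval τ⁻¹ Ginf, aeval_mem_B0 Ginf⟩ ^ k * z = resB1 h ρ b) :
    (∀ f : F, StarAbstract.LocalOK (B0 R τ) ⟨algebraMap R F π, algebraMap_mem_B0 π⟩ f) ∧
    (∀ f : F, StarAbstract.LocalOK (B1 R τ) ⟨algebraMap R F π, algebraMap_mem_B0 π⟩ f) := by
  refine ⟨localOK_B0_of_polyCover h K hK halg huniq ρ hρ G0 c0 hG0 hloc0, ?_⟩
  have hN0 := mem_range_resB0_of_polyCover h ρ G0 c0 hG0 hloc0
  refine localOK_B1_of_polyCover h K hK halg huniq ρ hρ ![X, Ginf] ![cX, cinf] ?_ ?_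
  · rw [Fin.sum_univ_two]
    exact hG1
  · intro i
    fin_cases i
    · intro z hz
      have := TheoremN.hloc_B1_tau_inv h ρ hρR hN0 z hz
      simpa [polyToB1_X] using this
    · intro z hz
      exact hlocinf z hz

/-- **`hstar` from the Kummer instances at the cusps** (generic Charts setting). -/
theorem hstar_of_cusps (h : GoodCoord π O τ) (K : IntermediateField L F) (hK : K = L⟮τ⟯)
    (hfin : FiniteDimensional K F) (hsep : Algebra.IsSeparable K F)
    (huniq : ∀ O'' : ValuationSubring F,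
      O''.comap (algebraMap K F) = O.comap (algebraMap K F) → O'' = O)
    (hR : ∀ x : F, IsIntegral R x → ∃ r : R, algebraMap R F r = x)
    (hκ : ∀ y ∈ O, ∀ p : R[X], p.Monic → O.valuation (aeval y p) < 1 →
      ∃ r : R, O.valuation (y - algebraMap R F r) < 1)
    {m : ℕ} (hm : IsUnit (m : R))
    (ρ : ↥O →+* E) (hρ : ∀ x : ↥O, ρ x = 0 ↔ O.valuation (x : F) < 1)
    (hρR : ∀ r : R, ρ ⟨algebraMap R F r, h.algebraMap_mem r⟩ =
      algebraMap (IsLocalRing.ResidueField R) E (IsLocalRing.residue R r))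
    {ι0 : Type*} [Fintype ι0] (G0 c0 : ι0 → R[X]) (hG0 : ∑ i, c0 i * G0 i = 1)
    (hloc0 : ∀ i, ∀ z : E, IsIntegral (resB0 h ρ).range z →
      ∃ (k : ℕ) (b : ↥(B0 R τ)),
        resB0 h ρ ⟨aeval τ (G0 i), aeval_mem_B0 (G0 i)⟩ ^ k * z = resB0 h ρ b)
    (Ginf cX cinf : R[X]) (hG1 : cX * X + cinf * Ginf = 1)
    (hlocinf : ∀ z : E, IsIntegral (resB1 h ρ).range z →
      ∃ (k : ℕ) (b : ↥(B1 R τ)),
        resB1 h ρ ⟨aeval τ⁻¹ Ginf, aeval_mem_B0 Ginf⟩ ^ k * z = resB1 h ρ b)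
    (f : F) (hf : O.valuation (f - 1) < 1) (hdiv : ∀ P : Place L F, (m : ℤ) ∣ P.ord f) :
    ∃ (c : L) (w : F), f = algebraMap L F c * w ^ m := by
  have halg : Algebra.IsAlgebraic K F := Algebra.IsAlgebraic.of_finite K F
  haveI := ChartsInst.isNoetherianRing_B0 h K hK hfin hsep
  haveI := ChartsInst.isNoetherianRing_B1 h K hK hfin hsep
  haveI := ChartsInst.isFractionRing_B0 h K hK halg huniq
  haveI := ChartsInst.isFractionRing_B1 h K hK halg huniq
  obtain ⟨h0, h1⟩ := localOK_of_cusps h K hK halg huniq ρ hρ hρR G0 c0 hG0 hloc0 Ginf cX cinf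
    hG1 hlocinf
  exact StarTop.hstar_of_charts h K hK hfin hsep huniq hR hκ hm h0 h1 f hf hdiv

section CoordData

open Fermat.Agent.S18.Inst.Bundle

variable {L' : Type*} [Field L'] [CharZero L'] {A : ValuationSubring L'}
  [IsDiscreteValuationRing A] {F' : Type*} [Field F'] [Algebra L' F'] {ϖ : A}
  {O' : ValuationSubring F'} {t : F'} {E' : Type*} [Field E']
  [Algebra (IsLocalRing.ResidueField ↥A) E']

/-- **`hstar` for the INST bundle from the Kummer instances at the cusps** (= the 4th conjunct of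
the top-level `Bundle`). -/
theorem hstar_of_coordData_cusps (h : CoordData A ϖ O' t) {m : ℕ} (hm : IsUnit (m : ↥A))
    (ρ : ↥O' →+* E') (hρ : ∀ x : ↥O', ρ x = 0 ↔ O'.valuation (x : F') < 1)
    (hρR : ∀ r : ↥A, ρ ⟨algebraMap ↥A F' r, h.good.algebraMap_mem r⟩ =
      algebraMap (IsLocalRing.ResidueField ↥A) E' (IsLocalRing.residue ↥A r))
    {ι0 : Type*} [Fintype ι0] (G0 c0 : ι0 → (↥A)[X]) (hG0 : ∑ i, c0 i * G0 i = 1)
    (hloc0 : ∀ i, ∀ z : E', IsIntegral (resB0 h.good ρ).range z →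
      ∃ (k : ℕ) (b : ↥(B0 ↥A t)),
        resB0 h.good ρ ⟨aeval t (G0 i), aeval_mem_B0 (G0 i)⟩ ^ k * z = resB0 h.good ρ b)
    (Ginf cX cinf : (↥A)[X]) (hG1 : cX * X + cinf * Ginf = 1)
    (hlocinf : ∀ z : E', IsIntegral (resB1 h.good ρ).range z →
      ∃ (k : ℕ) (b : ↥(B1 ↥A t)),
        resB1 h.good ρ ⟨aeval t⁻¹ Ginf, aeval_mem_B0 Ginf⟩ ^ k * z = resB1 h.good ρ b)
    (f : F') (hf : O'.valuation (f - 1) < 1) (hdiv : ∀ P : Place L' F', (m : ℤ) ∣ P.ord f) :
    ∃ (c : L') (w : F'), f = algebraMap L' F' c * w ^ m :=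
  hstar_of_cusps h.good L'⟮t⟯ rfl h.finite h.separable h.uniq h.intClosed h.resClosed hm
    ρ hρ hρR G0 c0 hG0 hloc0 Ginf cX cinf hG1 hlocinf f hf hdiv

end CoordData

end Fermat.Agent.S18.Final.Cusps
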