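import Mathlib
import Fermat.Agent.S18.Final.BundleOf
import Fermat.Agent.S18.Final.Cusps
import Fermat.Agent.S18.Inst.Level4
import Fermat.Agent.S18.Gauss.ScalableFull

/-!
# S18 (T3) at level `4 ∣ M`, `ℓ` odd: the bundle over a number field

`R₁ = A ∩ L₁`, `F = laurentBaseChange L₁ (modularFunctionFieldFull M)`, `4 ∣ M`, `ℓ ∤ M`.

* `charP_residueField_restrict` : the residue field of `R₁` has characteristic `ℓ`;
* `coordData4` : `Inst.Level4.coordData` with all side hypotheses discharged;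
* `cover4_fin`, `cover4_inf` : the partitions of unity of the two charts
  (`u (X + 16) - u X = 1` with `16 u = 1`, and `-16 X + (16 X + 1) = 1`);
* `bundle4_of_hloc` : `StarBundle.Bundle A L₁ M m` from the three Kummer statements
  (`Cusp/KummerHloc`) at the cusp values `t = 0`, `t = -16`, `t = ∞`.
-/

set_option autoImplicit false

open ModularCurve AlgebraicCurve Polynomial

namespace Fermat.Agent.S18.Final.Level4

open Fermat.Agent.S18.Descent Fermat.Agent.S18.Gauss.Residue Fermat.Agent.S18.Gauss.Basic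
  Fermat.Agent.S18.Core.Charts Fermat.Agent.S18.Core.StarAbstract Fermat.Agent.S18.Core
  Fermat.Agent.S18.Inst.Bundle Fermat.Agent.S18.Trans Fermat.Agent.S18.Core.StarBundle
  Fermat.Agent.S18.Cusp.ChartLocalOK Fermat.Agent.S18.Gauss
  IntermediateField

set_option synthInstance.maxHeartbeats 400000

local notation "Kb" => AlgebraicClosure ℚ

variable {ℓ : ℕ} [Fact ℓ.Prime] (A : ValuationSubring Kb) (hA : A.LiesOverPrime ℓ)
  (L₁ : IntermediateField ℚ Kb)

include hA in
/-- the residue field of `A ∩ L₁` has characteristic `ℓ`. -/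
theorem charP_residueField_restrict :
    CharP (IsLocalRing.ResidueField (restrict A L₁)) ℓ :=
  LiesOver.charP_residueField (BundleOf.liesOverPrime_restrict A L₁ hA)

include hA in
/-- natural numbers prime to `ℓ` are units of `A ∩ L₁`. -/
theorem isUnit_natCast_restrict {n : ℕ} (hn : ¬ ℓ ∣ n) : IsUnit ((n : ℕ) : restrict A L₁) := by
  have h1 := LiesOver.valuation_natCast_eq_one (BundleOf.liesOverPrime_restrict A L₁ hA) hn
  have h2 : (restrict A L₁).valuation (((n : ℕ) : restrict A L₁) : L₁) = 1 := by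
    simpa using h1
  exact ((restrict A L₁).valuation_eq_one_iff _).mpr h2

variable (M : ℕ) [NeZero M] (h4 : 4 ∣ M) (hℓM : ¬ ℓ ∣ M)

local notation "FL" => laurentBaseChange L₁ (modularFunctionFieldFull M)
local notation "R1" => restrict A L₁

/-- **The INST bundle at level `4 ∣ M` over `A ∩ L₁`**, all side hypotheses discharged. -/
theorem coordData4 [CharP (IsLocalRing.ResidueField R1) ℓ] [IsDiscreteValuationRing R1]
    {π : R1} (hπ : Irreducible π) :
    CoordData R1 π (gaussSubring (ScalableFull.scalable_full M R1 hℓM))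
      (Inst.Level4.tEl (L := L₁) M h4) := by
  haveI := Concrete.finiteDimensional L₁ M
  exact Inst.Level4.coordData h4 (ScalableFull.scalable_full M R1 hℓM) hπ
    (Concrete.jqModC_mem L₁ M)
    (fun O' h => Concrete.eq_of_comap_eq (ScalableFull.isGaussRed_full M R1 hℓM) hℓM O' h)

section Cover

variable {S : Type*} [CommRing S]

/-- partition of unity of the chart `t ≠ ∞` : the cover `{t ≠ -16} ∪ {t ≠ 0}`. -/
theorem cover4_fin (u : S) (hu : 16 * u = 1) :
    ∑ i : Fin 2, (![C u, -C u] : Fin 2 → S[X]) i * (![X + C 16, X] : Fin 2 → S[X]) i = 1 := by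
  rw [Fin.sum_univ_two]
  simp only [Matrix.cons_val_zero, Matrix.cons_val_one]
  have : C u * (X + C 16) + -C u * X = C (16 * u) := by
    rw [map_mul]; ring
  rw [this, hu, map_one]

/-- partition of unity of the chart `t ≠ 0` in the coordinate `1 / t` : `{1/t ≠ 0}` and
`{1/t ≠ -1/16}`. -/
theorem cover4_inf : (-C 16 : S[X]) * X + 1 * (C 16 * X + 1) = 1 := by
  ring

end Cover

include hA in
/-- **(T3) at level 4.** The bundle over `L₁` from the three Kummer statements. -/
theorem bundle4_of_hloc [FiniteDimensional ℚ L₁] (m : ℕ) (hℓm : ¬ ℓ ∣ m)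
    [CharP (IsLocalRing.ResidueField R1) ℓ] [IsDiscreteValuationRing R1]
    {π : R1} (hπ : Irreducible π)
    {E' : Type*} [Field E'] [Algebra (IsLocalRing.ResidueField R1) E']
    (ρ : gaussSubring (ScalableFull.scalable_full M R1 hℓM) →+* E')
    (hρ : ∀ x : gaussSubring (ScalableFull.scalable_full M R1 hℓM), ρ x = 0 ↔
      (gaussSubring (ScalableFull.scalable_full M R1 hℓM)).valuation (x : FL) < 1)
    (hρR : ∀ r : R1,
      ρ ⟨algebraMap R1 FL r, (coordData4 A L₁ M h4 hℓM hπ).good.algebraMap_mem r⟩ =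
        algebraMap (IsLocalRing.ResidueField R1) E' (IsLocalRing.residue R1 r))
    (hloc_zero : ∀ z : E', IsIntegral (resB0 (coordData4 A L₁ M h4 hℓM hπ).good ρ).range z →
      ∃ (k : ℕ) (b : ↥(B0 R1 (Inst.Level4.tEl (L := L₁) M h4))),
        resB0 (coordData4 A L₁ M h4 hℓM hπ).good ρ
          ⟨aeval (Inst.Level4.tEl (L := L₁) M h4) (X + C 16 : (R1)[X]), aeval_mem_B0 _⟩ ^ k * z =
          resB0 (coordData4 A L₁ M h4 hℓM hπ).good ρ b)
    (hloc_sixteen : ∀ z : E', IsIntegral (resB0 (coordData4 A L₁ M h4 hℓM hπ).good ρ).range z →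
      ∃ (k : ℕ) (b : ↥(B0 R1 (Inst.Level4.tEl (L := L₁) M h4))),
        resB0 (coordData4 A L₁ M h4 hℓM hπ).good ρ
          ⟨aeval (Inst.Level4.tEl (L := L₁) M h4) (X : (R1)[X]), aeval_mem_B0 _⟩ ^ k * z =
          resB0 (coordData4 A L₁ M h4 hℓM hπ).good ρ b)
    (hloc_inf : ∀ z : E', IsIntegral (resB1 (coordData4 A L₁ M h4 hℓM hπ).good ρ).range z →
      ∃ (k : ℕ) (b : ↥(B1 R1 (Inst.Level4.tEl (L := L₁) M h4))),
        resB1 (coordData4 A L₁ M h4 hℓM hπ).good ρ
          ⟨aeval (Inst.Level4.tEl (L := L₁) M h4)⁻¹ (C 16 * X + 1 : (R1)[X]),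
            aeval_mem_B0 _⟩ ^ k * z =
          resB1 (coordData4 A L₁ M h4 hℓM hπ).good ρ b) :
    Bundle A L₁ M m := by
  classical
  have hcd := coordData4 A L₁ M h4 hℓM hπ
  -- `16` is a unit of `R₁`
  have hℓ16 : ¬ ℓ ∣ 16 := by
    intro h
    have hp : ℓ.Prime := Fact.out
    have h2 : ℓ ∣ 2 := by
      have : ℓ ∣ 2 ^ 4 := by norm_num; exact h
      exact hp.dvd_of_dvd_pow this
    exact hℓM (dvd_trans h2 (dvd_trans (by norm_num : 2 ∣ 4) h4))
  obtain ⟨u16, hu16⟩ := isUnit_natCast_restrict A hA L₁ hℓ16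
  have hu : (16 : R1) * ((u16⁻¹ : (R1)ˣ) : R1) = 1 := by
    have : ((16 : ℕ) : R1) = (16 : R1) := by norm_num
    rw [← this, ← hu16, Units.mul_inv]
  have hsep := hcd.separable
  have halg := hcd.algebraic
  haveI := ChartsInst.isNoetherianRing_B0 hcd.good L₁⟮Inst.Level4.tEl (L := L₁) M h4⟯ rfl
    hcd.finite hsep
  haveI := ChartsInst.isNoetherianRing_B1 hcd.good L₁⟮Inst.Level4.tEl (L := L₁) M h4⟯ rfl
    hcd.finite hsep
  obtain ⟨hl0, hl1⟩ := Cusps.localOK_of_cusps hcd.good L₁⟮Inst.Level4.tEl (L := L₁) M h4⟯ rfl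
    halg hcd.uniq ρ hρ hρR ![X + C 16, X] ![C ((u16⁻¹ : (R1)ˣ) : R1), -C ((u16⁻¹ : (R1)ˣ) : R1)]
    (cover4_fin _ hu)
    (fun i => by
      fin_cases i
      · exact hloc_zero
      · exact hloc_sixteen)
    (C 16 * X + 1) (-C 16) 1 cover4_inf hloc_inf
  exact BundleOf.bundle_of_coordData A hA L₁ M m hℓM hℓm
    (ScalableFull.scalable_full M R1 hℓM) hcd hl0 hl1

end Fermat.Agent.S18.Final.Level4
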