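import Mathlib
import Fermat.Agent.S18.Final.Level4
import Fermat.Agent.S18.Inst.Level4Final

/-!
# S18 (T3) at level `4 ∣ M`: `bundle4_of_hloc` at helper15's `rho4`

The junction `Final/Level4.bundle4_of_hloc` ∘ `Inst/Level4Final` (`rho4`, `rho4_eq_zero_iff`,
`rho4_algebraMap`): the bundle over `L₁` from the three Kummer statements spelled with
`ρ := Level4Final.rho4 (A ∩ L₁) hℓM` and `E := modularFunctionFieldFullC κ₁ M`.
-/

set_option autoImplicit false

namespace Fermat.Agent.S18.Final.Level4Rho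
open ModularCurve AlgebraicCurve Polynomial
open Fermat.Agent.S18.Descent Fermat.Agent.S18.Gauss.Basic
  Fermat.Agent.S18.Core.Charts Fermat.Agent.S18.Core
  Fermat.Agent.S18.Inst.Bundle Fermat.Agent.S18.Core.StarBundle
  Fermat.Agent.S18.Cusp.ChartLocalOK Fermat.Agent.S18.Gauss Fermat.Agent.S18.Inst
  IntermediateField
set_option synthInstance.maxHeartbeats 400000
local notation "Kb" => AlgebraicClosure ℚ

variable {ℓ : ℕ} [Fact ℓ.Prime] (A : ValuationSubring Kb) (hA : A.LiesOverPrime ℓ)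
  (L₁ : IntermediateField ℚ Kb) (M : ℕ) [NeZero M] (h4 : 4 ∣ M) (hℓM : ¬ ℓ ∣ M)

local notation "FL" => laurentBaseChange L₁ (modularFunctionFieldFull M)
local notation "R1" => restrict A L₁

set_option maxHeartbeats 2000000 in
include hA in
theorem bundle4_of_hloc_rho4 [FiniteDimensional ℚ L₁] (m : ℕ) (hℓm : ¬ ℓ ∣ m)
    [CharP (IsLocalRing.ResidueField R1) ℓ] [IsDiscreteValuationRing R1]
    {π : R1} (hπ : Irreducible π)
    (hloc_zero : ∀ z : ↥(modularFunctionFieldFullC (IsLocalRing.ResidueField R1) M),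
      IsIntegral (resB0 (Fermat.Agent.S18.Inst.Level4Final.coordData4 h4 R1 hℓM hπ).good
        (Fermat.Agent.S18.Inst.Level4Final.rho4 R1 hℓM)).range z →
      ∃ (k : ℕ) (b : ↥(B0 R1 (Fermat.Agent.S18.Inst.Level4.tEl (L := L₁) M h4))),
        resB0 (Fermat.Agent.S18.Inst.Level4Final.coordData4 h4 R1 hℓM hπ).good (Fermat.Agent.S18.Inst.Level4Final.rho4 R1 hℓM)
          ⟨aeval (Fermat.Agent.S18.Inst.Level4.tEl (L := L₁) M h4) (X + C 16 : (R1)[X]), aeval_mem_B0 _⟩ ^ k * z =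
          resB0 (Fermat.Agent.S18.Inst.Level4Final.coordData4 h4 R1 hℓM hπ).good (Fermat.Agent.S18.Inst.Level4Final.rho4 R1 hℓM) b)
    (hloc_sixteen : ∀ z : ↥(modularFunctionFieldFullC (IsLocalRing.ResidueField R1) M),
      IsIntegral (resB0 (Fermat.Agent.S18.Inst.Level4Final.coordData4 h4 R1 hℓM hπ).good
        (Fermat.Agent.S18.Inst.Level4Final.rho4 R1 hℓM)).range z →
      ∃ (k : ℕ) (b : ↥(B0 R1 (Fermat.Agent.S18.Inst.Level4.tEl (L := L₁) M h4))),
        resB0 (Fermat.Agent.S18.Inst.Level4Final.coordData4 h4 R1 hℓM hπ).good (Fermat.Agent.S18.Inst.Level4Final.rho4 R1 hℓM)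
          ⟨aeval (Fermat.Agent.S18.Inst.Level4.tEl (L := L₁) M h4) (X : (R1)[X]), aeval_mem_B0 _⟩ ^ k * z =
          resB0 (Fermat.Agent.S18.Inst.Level4Final.coordData4 h4 R1 hℓM hπ).good (Fermat.Agent.S18.Inst.Level4Final.rho4 R1 hℓM) b)
    (hloc_inf : ∀ z : ↥(modularFunctionFieldFullC (IsLocalRing.ResidueField R1) M),
      IsIntegral (resB1 (Fermat.Agent.S18.Inst.Level4Final.coordData4 h4 R1 hℓM hπ).good
        (Fermat.Agent.S18.Inst.Level4Final.rho4 R1 hℓM)).range z →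
      ∃ (k : ℕ) (b : ↥(B1 R1 (Fermat.Agent.S18.Inst.Level4.tEl (L := L₁) M h4))),
        resB1 (Fermat.Agent.S18.Inst.Level4Final.coordData4 h4 R1 hℓM hπ).good (Fermat.Agent.S18.Inst.Level4Final.rho4 R1 hℓM)
          ⟨aeval (Fermat.Agent.S18.Inst.Level4.tEl (L := L₁) M h4)⁻¹ (C 16 * X + 1 : (R1)[X]),
            aeval_mem_B0 _⟩ ^ k * z =
          resB1 (Fermat.Agent.S18.Inst.Level4Final.coordData4 h4 R1 hℓM hπ).good (Fermat.Agent.S18.Inst.Level4Final.rho4 R1 hℓM) b) :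
    Bundle A L₁ M m :=
  Fermat.Agent.S18.Final.Level4.bundle4_of_hloc A hA L₁ M h4 hℓM m hℓm hπ
    (Fermat.Agent.S18.Inst.Level4Final.rho4 R1 hℓM) (Fermat.Agent.S18.Inst.Level4Final.rho4_eq_zero_iff R1 hℓM)
    (fun r => Fermat.Agent.S18.Inst.Level4Final.rho4_algebraMap R1 hℓM r _) hloc_zero hloc_sixteen hloc_inf

end Fermat.Agent.S18.Final.Level4Rho
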