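import Mathlib
import Fermat.Agent.S18.Final.Level4Rho

/-!
# S18: `Trans.Star` at level `4 ∣ M` from the three Kummer statements

Level-4 twin of `Final/Level9.star9_of_localOK`: if for every number field `L₁ ⊆ ℚ̄` and every
uniformiser `π` of `A ∩ L₁` the three Kummer `hloc` statements of `Final/Level4Rho` hold (cover
elements `t + 16`, `t` on the chart `B0` and `16 t⁻¹ + 1` on the chart `B1`, spelled with
`Inst/Level4Final.rho4` / `coordData4`), then `Trans.Star A M m` holds
(`Level4Rho.bundle4_of_hloc_rho4` + `StarBundle.star_of_bundle` with `T0 = ∅`).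
-/

set_option autoImplicit false

namespace Fermat.Agent.S18.Final.Star4
open ModularCurve AlgebraicCurve Polynomial
open Fermat.Agent.S18.Descent Fermat.Agent.S18.Gauss.Basic
  Fermat.Agent.S18.Core.Charts Fermat.Agent.S18.Core
  Fermat.Agent.S18.Inst.Bundle Fermat.Agent.S18.Core.StarBundle
  Fermat.Agent.S18.Cusp.ChartLocalOK Fermat.Agent.S18.Gauss Fermat.Agent.S18.Inst
  IntermediateField
set_option synthInstance.maxHeartbeats 400000
local notation "Kb" => AlgebraicClosure ℚ

variable {ℓ : ℕ} [Fact ℓ.Prime]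

/-- The three Kummer statements at level `4 ∣ M` over `(L₁, A ∩ L₁, π)`, in the spelling of
`Level4Rho.bundle4_of_hloc_rho4`. -/
def Hloc4 (A : ValuationSubring Kb) (L₁ : IntermediateField ℚ Kb) (M : ℕ) [NeZero M] (h4 : 4 ∣ M)
    (hℓM : ¬ ℓ ∣ M) [CharP (IsLocalRing.ResidueField (restrict A L₁)) ℓ]
    [IsDiscreteValuationRing (restrict A L₁)] {π : restrict A L₁} (hπ : Irreducible π) : Prop :=
  (∀ z : ↥(modularFunctionFieldFullC (IsLocalRing.ResidueField (restrict A L₁)) M),
      IsIntegral (resB0 (Fermat.Agent.S18.Inst.Level4Final.coordData4 h4 (restrict A L₁) hℓM hπ).good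
        (Fermat.Agent.S18.Inst.Level4Final.rho4 (restrict A L₁) hℓM)).range z →
      ∃ (k : ℕ) (b : ↥(B0 (restrict A L₁) (Fermat.Agent.S18.Inst.Level4.tEl (L := L₁) M h4))),
        resB0 (Fermat.Agent.S18.Inst.Level4Final.coordData4 h4 (restrict A L₁) hℓM hπ).good
          (Fermat.Agent.S18.Inst.Level4Final.rho4 (restrict A L₁) hℓM)
          ⟨aeval (Fermat.Agent.S18.Inst.Level4.tEl (L := L₁) M h4)
            (X + C 16 : (restrict A L₁)[X]), aeval_mem_B0 _⟩ ^ k * z =
          resB0 (Fermat.Agent.S18.Inst.Level4Final.coordData4 h4 (restrict A L₁) hℓM hπ).good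
            (Fermat.Agent.S18.Inst.Level4Final.rho4 (restrict A L₁) hℓM) b) ∧
  (∀ z : ↥(modularFunctionFieldFullC (IsLocalRing.ResidueField (restrict A L₁)) M),
      IsIntegral (resB0 (Fermat.Agent.S18.Inst.Level4Final.coordData4 h4 (restrict A L₁) hℓM hπ).good
        (Fermat.Agent.S18.Inst.Level4Final.rho4 (restrict A L₁) hℓM)).range z →
      ∃ (k : ℕ) (b : ↥(B0 (restrict A L₁) (Fermat.Agent.S18.Inst.Level4.tEl (L := L₁) M h4))),
        resB0 (Fermat.Agent.S18.Inst.Level4Final.coordData4 h4 (restrict A L₁) hℓM hπ).good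
          (Fermat.Agent.S18.Inst.Level4Final.rho4 (restrict A L₁) hℓM)
          ⟨aeval (Fermat.Agent.S18.Inst.Level4.tEl (L := L₁) M h4)
            (X : (restrict A L₁)[X]), aeval_mem_B0 _⟩ ^ k * z =
          resB0 (Fermat.Agent.S18.Inst.Level4Final.coordData4 h4 (restrict A L₁) hℓM hπ).good
            (Fermat.Agent.S18.Inst.Level4Final.rho4 (restrict A L₁) hℓM) b) ∧
  (∀ z : ↥(modularFunctionFieldFullC (IsLocalRing.ResidueField (restrict A L₁)) M),
      IsIntegral (resB1 (Fermat.Agent.S18.Inst.Level4Final.coordData4 h4 (restrict A L₁) hℓM hπ).good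
        (Fermat.Agent.S18.Inst.Level4Final.rho4 (restrict A L₁) hℓM)).range z →
      ∃ (k : ℕ) (b : ↥(B1 (restrict A L₁) (Fermat.Agent.S18.Inst.Level4.tEl (L := L₁) M h4))),
        resB1 (Fermat.Agent.S18.Inst.Level4Final.coordData4 h4 (restrict A L₁) hℓM hπ).good
          (Fermat.Agent.S18.Inst.Level4Final.rho4 (restrict A L₁) hℓM)
          ⟨aeval (Fermat.Agent.S18.Inst.Level4.tEl (L := L₁) M h4)⁻¹
            (C 16 * X + 1 : (restrict A L₁)[X]), aeval_mem_B0 _⟩ ^ k * z =
          resB1 (Fermat.Agent.S18.Inst.Level4Final.coordData4 h4 (restrict A L₁) hℓM hπ).good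
            (Fermat.Agent.S18.Inst.Level4Final.rho4 (restrict A L₁) hℓM) b)

/-- **`Trans.Star` at level `4 ∣ M`** from the three Kummer statements over every number field
`L₁ ⊆ ℚ̄` (`T0 = ∅`): the level-4 top of the chain. -/
theorem star4_of_hloc (A : ValuationSubring Kb) (hA : A.LiesOverPrime ℓ) (M m : ℕ) [NeZero M]
    (h4 : 4 ∣ M) (hℓM : ¬ ℓ ∣ M) (hℓm : ¬ ℓ ∣ m)
    (H : ∀ (L₁ : IntermediateField ℚ Kb) [FiniteDimensional ℚ L₁]
      [CharP (IsLocalRing.ResidueField (restrict A L₁)) ℓ]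
      [IsDiscreteValuationRing (restrict A L₁)] {π : restrict A L₁} (hπ : Irreducible π),
      Hloc4 A L₁ M h4 hℓM hπ) :
    Trans.Star A M m := by
  refine star_of_bundle A M m ∅ (fun L₁ _ _ => ?_)
  haveI : IsDiscreteValuationRing (restrict A L₁) :=
    isDiscreteValuationRing_restrict_of_liesOver A (Fact.out : ℓ.Prime).ne_zero hA L₁
  haveI : CharP (IsLocalRing.ResidueField (restrict A L₁)) ℓ :=
    Fermat.Agent.S18.Final.Level4.charP_residueField_restrict A hA L₁
  obtain ⟨π, hπ⟩ := IsDiscreteValuationRing.exists_irreducible (restrict A L₁)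
  obtain ⟨h0, h16, hinf⟩ := H L₁ hπ
  exact Fermat.Agent.S18.Final.Level4Rho.bundle4_of_hloc_rho4 A hA L₁ M h4 hℓM m hℓm hπ
    h0 h16 hinf

end Fermat.Agent.S18.Final.Star4
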