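import Mathlib
import Fermat.Prelude.Def_FLTPrelim_Ramification
import Fermat.Agent.S18.Descent.Restrict
import Fermat.Agent.S18.Trans.LiesOver
import Fermat.Agent.S18.Cusp.Level9Poly

/-!
# S18, final plumbing: small facts about `A ∩ L₁` used by `bundle4` / `bundle9`

`A` a valuation subring of a field `K` lying over the prime `ℓ`, `L₁` a subfield
(`[Field L₁] [Algebra L₁ K]`), `restrict A L₁ = A ∩ L₁` (`Descent/Restrict`):

* `comap_valuation_lt_one_iff`, `comap_valuation_eq_one_iff` : valuations of a comap;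
* `liesOverPrime_restrict` : `A ∩ L₁` lies over `ℓ`; `charP_residueField_restrict`;
* `isUnit_natCast_restrict` : `m` prime to `ℓ` is a unit of `A ∩ L₁` (the `hm` of
  `Final.hstar_of_coordData`; `IsUnit 3` at `ℓ = 2`, `IsUnit 16` at `ℓ` odd);
* `mem_of_isIntegral_int`, `root_mem` : integral elements lie in every valuation subring; a root
  `ρ` of `X² + 9 X + 27` lies in `A`;
* `rhoR` : for `ρ₁ : L₁` a root, the element `ρ₁` of `A ∩ L₁`, with `rhoR_root`;
  with `3` a unit (`ℓ = 2`): `ρ, ρ', ρ - ρ'` are units of `A ∩ L₁` (the finite cusp values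
  `0, ρ, ρ'` of the `t₉`-line are pairwise distinct modulo the maximal ideal);
* `exists_rho`, `exists_rho_mem` : a root in `ℚ̄`, and in every `L₁ ⊆ ℚ̄` containing it.
-/

set_option autoImplicit false

open Fermat.Agent.S18.Descent

namespace Fermat.Agent.S18.Final.Level9Aux

section Comap

variable {F F' : Type*} [Field F] [Field F'] (φ : F →+* F') (V' : ValuationSubring F')

theorem valuation_lt_one_iff_inv_not_mem {F : Type*} [Field F] (V : ValuationSubring F) {x : F}
    (hx : x ≠ 0) : V.valuation x < 1 ↔ x⁻¹ ∉ V := by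
  rw [← V.valuation_le_one_iff, map_inv₀, not_le,
    one_lt_inv₀ (zero_lt_iff.mpr (V.valuation.ne_zero_iff.mpr hx))]

theorem valuation_eq_one_iff_mem_and_inv_mem {F : Type*} [Field F] (V : ValuationSubring F) {x : F}
    (hx : x ≠ 0) : V.valuation x = 1 ↔ x ∈ V ∧ x⁻¹ ∈ V := by
  constructor
  · intro h
    refine ⟨(V.valuation_le_one_iff x).mp h.le, (V.valuation_le_one_iff _).mp ?_⟩
    rw [map_inv₀, h, inv_one]
  · rintro ⟨h1, h2⟩
    have h1' := (V.valuation_le_one_iff x).mpr h1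
    have h2' := (V.valuation_le_one_iff _).mpr h2
    rw [map_inv₀] at h2'
    have hpos : 0 < V.valuation x := zero_lt_iff.mpr (V.valuation.ne_zero_iff.mpr hx)
    exact le_antisymm h1' ((inv_le_one₀ hpos).mp h2')

theorem comap_valuation_lt_one_iff (x : F) :
    (V'.comap φ).valuation x < 1 ↔ V'.valuation (φ x) < 1 := by
  by_cases hx : x = 0
  · subst hx; simp
  have hx' : φ x ≠ 0 := (map_ne_zero φ).mpr hx
  rw [valuation_lt_one_iff_inv_not_mem _ hx, valuation_lt_one_iff_inv_not_mem _ hx',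
    ValuationSubring.mem_comap, map_inv₀]

theorem comap_valuation_eq_one_iff (x : F) :
    (V'.comap φ).valuation x = 1 ↔ V'.valuation (φ x) = 1 := by
  by_cases hx : x = 0
  · subst hx; simp
  have hx' : φ x ≠ 0 := (map_ne_zero φ).mpr hx
  rw [valuation_eq_one_iff_mem_and_inv_mem _ hx, valuation_eq_one_iff_mem_and_inv_mem _ hx',
    ValuationSubring.mem_comap, ValuationSubring.mem_comap, map_inv₀]

end Comap

section Restrict

variable {K : Type*} [Field K] (A : ValuationSubring K) (L₁ : Type*) [Field L₁] [Algebra L₁ K]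
  {ℓ : ℕ}

theorem restrict_valuation_lt_one_iff (x : L₁) :
    (restrict A L₁).valuation x < 1 ↔ A.valuation (algebraMap L₁ K x) < 1 :=
  comap_valuation_lt_one_iff (algebraMap L₁ K) A x

theorem restrict_valuation_eq_one_iff (x : L₁) :
    (restrict A L₁).valuation x = 1 ↔ A.valuation (algebraMap L₁ K x) = 1 :=
  comap_valuation_eq_one_iff (algebraMap L₁ K) A x

/-- `A ∩ L₁` lies over `ℓ`. -/
theorem liesOverPrime_restrict (hA : A.LiesOverPrime ℓ) : (restrict A L₁).LiesOverPrime ℓ := by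
  have h : (ℓ : K) ∈ A.nonunits := hA
  rw [ValuationSubring.mem_nonunits_iff] at h
  show (ℓ : L₁) ∈ (restrict A L₁).nonunits
  rw [ValuationSubring.mem_nonunits_iff, restrict_valuation_lt_one_iff, map_natCast]
  exact h

/-- the residue field of `A ∩ L₁` has characteristic `ℓ`. -/
theorem charP_residueField_restrict [Fact ℓ.Prime] (hA : A.LiesOverPrime ℓ) :
    CharP (IsLocalRing.ResidueField (restrict A L₁)) ℓ :=
  Trans.LiesOver.charP_residueField (liesOverPrime_restrict A L₁ hA)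

/-- an element of `A ∩ L₁` of valuation one is a unit. -/
theorem isUnit_of_valuation_eq_one {x : restrict A L₁}
    (h : A.valuation (algebraMap L₁ K (x : L₁)) = 1) : IsUnit x :=
  ((restrict A L₁).valuation_eq_one_iff x).mpr ((restrict_valuation_eq_one_iff A L₁ _).mpr h)

/-- **`m` prime to `ℓ` is a unit of `A ∩ L₁`.** -/
theorem isUnit_natCast_restrict [Fact ℓ.Prime] (hA : A.LiesOverPrime ℓ) {m : ℕ} (hm : ¬ ℓ ∣ m) :
    IsUnit ((m : ℕ) : restrict A L₁) := by
  apply isUnit_of_valuation_eq_one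
  have : algebraMap L₁ K (((m : ℕ) : restrict A L₁) : L₁) = (m : K) := by
    rw [show (((m : ℕ) : restrict A L₁) : L₁) = (m : L₁) by simp, map_natCast]
  rw [this]
  exact Trans.LiesOver.valuation_natCast_eq_one hA hm

/-- `m` prime to `ℓ` is a unit of `A`. -/
theorem isUnit_natCast [Fact ℓ.Prime] (hA : A.LiesOverPrime ℓ) {m : ℕ} (hm : ¬ ℓ ∣ m) :
    IsUnit ((m : ℕ) : A) := by
  refine (A.valuation_eq_one_iff _).mpr ?_
  have : ((((m : ℕ) : A) : A) : K) = (m : K) := by simp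
  rw [this]
  exact Trans.LiesOver.valuation_natCast_eq_one hA hm

/-- `3` is a unit of `A ∩ L₁` at `ℓ = 2`. -/
theorem isUnit_three_restrict (hA : A.LiesOverPrime 2) : IsUnit (3 : restrict A L₁) := by
  have : Fact (Nat.Prime 2) := ⟨Nat.prime_two⟩
  have := isUnit_natCast_restrict A L₁ hA (m := 3) (by norm_num)
  simpa using this

end Restrict

section Integral

variable {K : Type*} [Field K] (A : ValuationSubring K)

/-- an element integral over `ℤ` lies in every valuation subring. -/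
theorem mem_of_isIntegral_int {x : K} (hx : IsIntegral ℤ x) : x ∈ A := by
  have h1 : IsIntegral A x := hx.tower_top
  obtain ⟨y, hy⟩ := IsIntegrallyClosed.isIntegral_iff.mp h1
  rw [← hy]
  exact y.2

/-- a root of `X² + 9 X + 27` is integral over `ℤ`. -/
theorem isIntegral_root {ρ : K} (hρ : ρ ^ 2 + 9 * ρ + 27 = 0) : IsIntegral ℤ ρ := by
  refine ⟨Polynomial.X ^ 2 + 9 * Polynomial.X + 27, ?_, ?_⟩
  · monicity!
  · simpa using hρ

/-- a root of `X² + 9 X + 27` lies in every valuation subring. -/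
theorem root_mem {ρ : K} (hρ : ρ ^ 2 + 9 * ρ + 27 = 0) : ρ ∈ A :=
  mem_of_isIntegral_int A (isIntegral_root hρ)

end Integral

section Rho

variable {K : Type*} [Field K] (A : ValuationSubring K) (L₁ : Type*) [Field L₁] [Algebra L₁ K]

/-- a root `ρ₁ ∈ L₁` of `X² + 9 X + 27`, as an element of `A ∩ L₁`. -/
def rhoR {ρ₁ : L₁} (hρ₁ : ρ₁ ^ 2 + 9 * ρ₁ + 27 = 0) : restrict A L₁ :=
  ⟨ρ₁, by
    rw [mem_restrict]
    apply root_mem A
    have := congrArg (algebraMap L₁ K) hρ₁
    simpa only [map_add, map_mul, map_pow, map_ofNat, map_zero] using this⟩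

variable {L₁} {ρ₁ : L₁} (hρ₁ : ρ₁ ^ 2 + 9 * ρ₁ + 27 = 0)

@[simp] theorem coe_rhoR : ((rhoR A L₁ hρ₁ : restrict A L₁) : L₁) = ρ₁ := rfl

theorem rhoR_root : rhoR A L₁ hρ₁ ^ 2 + 9 * rhoR A L₁ hρ₁ + 27 = 0 := by
  apply Subtype.ext
  push_cast
  exact hρ₁

open Fermat.Agent.S18.Cusp.Level9Poly in
/-- at `ℓ = 2` the finite cusp values `0, ρ, ρ'` of the `t₉`-line are pairwise distinct modulo the
maximal ideal of `A ∩ L₁`: `ρ`, `ρ'`, `ρ - ρ'` are units. -/
theorem isUnit_rhoR (hA : A.LiesOverPrime 2) :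
    IsUnit (rhoR A L₁ hρ₁) ∧ IsUnit (conj (rhoR A L₁ hρ₁)) ∧
      IsUnit (rhoR A L₁ hρ₁ - conj (rhoR A L₁ hρ₁)) :=
  ⟨isUnit_root (rhoR_root A hρ₁) (isUnit_three_restrict A L₁ hA),
    isUnit_conj (rhoR_root A hρ₁) (isUnit_three_restrict A L₁ hA),
    isUnit_sub_conj (rhoR_root A hρ₁) (isUnit_three_restrict A L₁ hA)⟩

end Rho

section Qbar

local notation "Kb" => AlgebraicClosure ℚ

/-- a root of `X² + 9 X + 27` in `ℚ̄`. -/
theorem exists_rho : ∃ ρ : Kb, ρ ^ 2 + 9 * ρ + 27 = 0 :=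
  Fermat.Agent.S18.Cusp.Level9Poly.exists_root Kb

/-- if `L₁ ⊆ ℚ̄` contains the root `ρ`, it contains it as a root. -/
theorem exists_rho_mem {ρ : Kb} (hρ : ρ ^ 2 + 9 * ρ + 27 = 0) (L₁ : IntermediateField ℚ Kb)
    (h : ((({ρ} : Finset Kb) : Finset Kb) : Set Kb) ⊆ (L₁ : Set Kb)) :
    ∃ ρ₁ : L₁, algebraMap L₁ Kb ρ₁ = ρ ∧ ρ₁ ^ 2 + 9 * ρ₁ + 27 = 0 := by
  have hmem : ρ ∈ L₁ := h (by simp)
  refine ⟨⟨ρ, hmem⟩, rfl, ?_⟩
  apply Subtype.ext
  push_cast
  exact hρ

end Qbar

end Fermat.Agent.S18.Final.Level9Aux
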