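import Mathlib
import Fermat.Agent.S18.Final.BundleOf
import Fermat.Agent.S18.Final.Cusps
import Fermat.Agent.S18.Final.Level9Aux
import Fermat.Agent.S18.Inst.Level9
import Fermat.Agent.S18.Gauss.ModularH

/-!
# S18 (T3, level 9): the bundle over a number field at level `9 ∣ M`

`L₁ ⊆ ℚ̄` a number field containing a root `ρ₁` of `X² + 9 X + 27`, `R₁ = A ∩ L₁`,
`F = laurentBaseChange L₁ (modularFunctionFieldFull M)`, `9 ∣ M`, `ℓ ∤ M` (so `ℓ ≠ 3`), `ℓ ∤ m`,
coordinate `t = t₉` (`Inst.Level9.t9el`).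

* `G9`, `c9`, `cover9` : the polynomial cover `g₀, g_ρ, g_ρ'` of the chart `B0` with its Lagrange
  partition of unity; `Ginf9`, `coverInf9` : the cover `{X, 27 X² + 9 X + 1}` of the chart `B1`;
* `scalable9`, `coordData9` : the Gauss data over `R₁` with all side hypotheses discharged;
* `bundle9_of_hloc` : `StarBundle.Bundle A L₁ M m` from the four Kummer statements
  (`hloc` at the finite cusp values `0, ρ, ρ'` and at `∞`) in the shape of `Final/Cusps`.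
-/

set_option autoImplicit false
set_option linter.unusedSectionVars false
set_option linter.style.haveILetI false

open ModularCurve AlgebraicCurve Polynomial

namespace Fermat.Agent.S18.Final.Level9

open Fermat.Agent.S18.Descent Fermat.Agent.S18.Gauss.Basic
  Fermat.Agent.S18.Core.Charts Fermat.Agent.S18.Core
  Fermat.Agent.S18.Inst.Bundle Fermat.Agent.S18.Trans Fermat.Agent.S18.Core.StarBundle
  Fermat.Agent.S18.Cusp.ChartLocalOK Fermat.Agent.S18.Cusp.Level9Poly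
  IntermediateField

set_option synthInstance.maxHeartbeats 400000

local notation "Kb" => AlgebraicClosure ℚ

/-! ### the polynomial covers -/

section Cover

variable {R : Type*} [CommRing R]

/-- the cover polynomials of the chart `B0` at level 9: `g₀ = (X - ρ)(X - ρ')`,
`g_ρ = X (X - ρ')`, `g_ρ' = X (X - ρ)`. -/
noncomputable def G9 (ρ : R) : Fin 3 → R[X] := ![g0 ρ, gOf ρ, gOf (conj ρ)]

/-- the Lagrange coefficients (`u = 1/3`). -/
noncomputable def c9 (ρ u : R) : Fin 3 → R[X] :=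
  ![C (u ^ 3), C (-(conj ρ * (ρ - conj ρ)) * u ^ 6), C (ρ * (ρ - conj ρ) * u ^ 6)]

theorem cover9 {ρ : R} (hρ : ρ ^ 2 + 9 * ρ + 27 = 0) (u : R) (hu : 3 * u = 1) :
    ∑ i, c9 ρ u i * G9 ρ i = 1 := by
  rw [Fin.sum_univ_three]
  exact lagrange hρ u hu

/-- the cover polynomial of the chart `B1` (coordinate `u = 1/t`): `27 u² + 9 u + 1`. -/
noncomputable def Ginf9 : R[X] := 27 * X ^ 2 + 9 * X + 1

theorem coverInf9 : (-(27 * X + 9) : R[X]) * X + 1 * Ginf9 = 1 := by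
  unfold Ginf9; ring

/-- the finite cusp values. -/
def a9 (ρ : R) : Fin 3 → R := ![0, ρ, conj ρ]

/-- the cover polynomials in the shifted coordinate `t - a` (roots = the other cusp values). -/
noncomputable def g9 (ρ : R) : Fin 3 → R[X] :=
  ![X ^ 2 + 9 * X + 27, (X + C ρ) * (X + C (ρ - conj ρ)),
    (X + C (conj ρ)) * (X + C (conj ρ - ρ))]

theorem g9_comp {ρ : R} (hρ : ρ ^ 2 + 9 * ρ + 27 = 0) (i : Fin 3) :
    (g9 ρ i).comp (X - C (a9 ρ i)) = G9 ρ i := by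
  fin_cases i
  · show (X ^ 2 + 9 * X + 27 : R[X]).comp (X - C 0) = g0 ρ
    rw [C_0, sub_zero, comp_X, g0_eq hρ]
  · show ((X + C ρ) * (X + C (ρ - conj ρ)) : R[X]).comp (X - C ρ) = gOf ρ
    simp only [gOf, mul_comp, add_comp, sub_comp, X_comp, C_comp, C_sub]
    ring
  · show ((X + C (conj ρ)) * (X + C (conj ρ - ρ)) : R[X]).comp (X - C (conj ρ)) = gOf (conj ρ)
    simp only [gOf, conj_conj, mul_comp, add_comp, sub_comp, X_comp, C_comp, C_sub]
    ring

/-- the cover polynomial at infinity, as a shifted polynomial with `a = 0`. -/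
theorem Ginf9_comp : (Ginf9 : R[X]).comp (X - C 0) = Ginf9 := by
  rw [C_0, sub_zero, comp_X]

end Cover

/-! ### `LocalOK` on both charts from the Kummer statements (generic INST setting) -/

section Generic

variable {L' : Type*} [Field L'] [CharZero L'] {A' : ValuationSubring L'}
  [IsDiscreteValuationRing A'] {F' : Type*} [Field F'] [Algebra L' F'] {ϖ : A'}
  {O' : ValuationSubring F'} {t : F'} {E' : Type*} [Field E']
  [Algebra (IsLocalRing.ResidueField ↥A') E']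

/-- **`LocalOK` on both charts at level 9** from the four Kummer statements (shape of
`Final/Cusps`): the finite cusp values `0, ρ, ρ'` on the chart `B0`, and `∞` on the chart `B1`.
`r` is a root of `X² + 9 X + 27` in `A'` and `3` is a unit of `A'`. -/
theorem localOK9 (h : CoordData A' ϖ O' t) {r : A'} (hr : r ^ 2 + 9 * r + 27 = 0)
    (h3 : IsUnit (3 : A'))
    (ρ : ↥O' →+* E') (hρ : ∀ x : ↥O', ρ x = 0 ↔ O'.valuation (x : F') < 1)
    (hρR : ∀ a : ↥A', ρ ⟨algebraMap ↥A' F' a, h.good.algebraMap_mem a⟩ =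
      algebraMap (IsLocalRing.ResidueField ↥A') E' (IsLocalRing.residue ↥A' a))
    (hloc0 : ∀ i, ∀ z : E', IsIntegral (resB0 h.good ρ).range z →
      ∃ (k : ℕ) (b : ↥(B0 ↥A' t)),
        resB0 h.good ρ ⟨aeval t (G9 r i), aeval_mem_B0 (G9 r i)⟩ ^ k * z = resB0 h.good ρ b)
    (hlocinf : ∀ z : E', IsIntegral (resB1 h.good ρ).range z →
      ∃ (k : ℕ) (b : ↥(B1 ↥A' t)),
        resB1 h.good ρ ⟨aeval t⁻¹ (Ginf9 : (↥A')[X]), aeval_mem_B0 Ginf9⟩ ^ k * z =
          resB1 h.good ρ b) :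
    (∀ f : F', StarAbstract.LocalOK (B0 ↥A' t) ⟨algebraMap ↥A' F' ϖ, algebraMap_mem_B0 ϖ⟩ f) ∧
    (∀ f : F', StarAbstract.LocalOK (B1 ↥A' t) ⟨algebraMap ↥A' F' ϖ, algebraMap_mem_B0 ϖ⟩ f) := by
  obtain ⟨u3, hu3⟩ := h3
  have hu : (3 : ↥A') * ((u3⁻¹ : (↥A')ˣ) : ↥A') = 1 := by
    rw [← hu3]; exact u3.mul_inv
  have hsep := h.separable
  have halg := h.algebraic
  haveI := ChartsInst.isNoetherianRing_B0 h.good L'⟮t⟯ rfl h.finite hsep
  haveI := ChartsInst.isNoetherianRing_B1 h.good L'⟮t⟯ rfl h.finite hsep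
  exact Cusps.localOK_of_cusps h.good L'⟮t⟯ rfl halg h.uniq ρ hρ hρR (G9 r)
    (c9 r ((u3⁻¹ : (↥A')ˣ) : ↥A')) (cover9 hr _ hu) hloc0 Ginf9 (-(27 * X + 9)) 1 coverInf9
    hlocinf

/-- the same from the conclusions of `Cusp/KummerHloc.hloc_of_kummer_package` (uniform exponent,
cover polynomials written as `g(X - a)`). -/
theorem localOK9_of_kummer (h : CoordData A' ϖ O' t) {r : A'} (hr : r ^ 2 + 9 * r + 27 = 0)
    (h3 : IsUnit (3 : A'))
    (ρ : ↥O' →+* E') (hρ : ∀ x : ↥O', ρ x = 0 ↔ O'.valuation (x : F') < 1)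
    (hρR : ∀ a : ↥A', ρ ⟨algebraMap ↥A' F' a, h.good.algebraMap_mem a⟩ =
      algebraMap (IsLocalRing.ResidueField ↥A') E' (IsLocalRing.residue ↥A' a))
    (hloc0 : ∀ i, ∃ k : ℕ, ∀ z : E', IsIntegral (resB0 h.good ρ).range z →
      ∃ b : ↥(B0 ↥A' t),
        resB0 h.good ρ ⟨aeval t ((g9 r i).comp (X - C (a9 r i))), aeval_mem_B0 _⟩ ^ k * z =
          resB0 h.good ρ b)
    (hlocinf : ∃ k : ℕ, ∀ z : E', IsIntegral (resB0 h.good.inv ρ).range z →
      ∃ b : ↥(B0 ↥A' t⁻¹),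
        resB0 h.good.inv ρ ⟨aeval t⁻¹ ((Ginf9 : (↥A')[X]).comp (X - C 0)), aeval_mem_B0 _⟩ ^ k * z =
          resB0 h.good.inv ρ b) :
    (∀ f : F', StarAbstract.LocalOK (B0 ↥A' t) ⟨algebraMap ↥A' F' ϖ, algebraMap_mem_B0 ϖ⟩ f) ∧
    (∀ f : F', StarAbstract.LocalOK (B1 ↥A' t) ⟨algebraMap ↥A' F' ϖ, algebraMap_mem_B0 ϖ⟩ f) := by
  refine localOK9 h hr h3 ρ hρ hρR (fun i z hz => ?_) (fun z hz => ?_)
  · obtain ⟨k, hk⟩ := hloc0 i
    obtain ⟨b, hb⟩ := hk z hz
    refine ⟨k, b, ?_⟩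
    have e1 : (⟨aeval t (G9 r i), aeval_mem_B0 (G9 r i)⟩ : ↥(B0 ↥A' t)) =
        ⟨aeval t ((g9 r i).comp (X - C (a9 r i))), aeval_mem_B0 _⟩ :=
      Subtype.ext (by rw [g9_comp hr i])
    rw [e1]
    exact hb
  · obtain ⟨k, hk⟩ := hlocinf
    obtain ⟨b, hb⟩ := hk z hz
    refine ⟨k, b, ?_⟩
    have e1 : (⟨aeval t⁻¹ (Ginf9 : (↥A')[X]), aeval_mem_B0 Ginf9⟩ : ↥(B0 ↥A' t⁻¹)) =
        ⟨aeval t⁻¹ ((Ginf9 : (↥A')[X]).comp (X - C 0)), aeval_mem_B0 _⟩ :=
      Subtype.ext (by rw [Ginf9_comp])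
    change resB0 h.good.inv ρ ⟨aeval t⁻¹ (Ginf9 : (↥A')[X]), aeval_mem_B0 Ginf9⟩ ^ k * z =
      resB0 h.good.inv ρ b
    rw [e1]
    exact hb

end Generic

/-! ### the Gauss data over `A ∩ L₁` -/

variable {ℓ : ℕ} [Fact ℓ.Prime] (A : ValuationSubring Kb) (hA : A.LiesOverPrime ℓ)
  (L₁ : IntermediateField ℚ Kb) [FiniteDimensional ℚ L₁] (M m : ℕ) [NeZero M]

local notation "FL" => laurentBaseChange L₁ (modularFunctionFieldFull M)
local notation "R1" => restrict A L₁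

include hA in
/-- scalability of `F` over `A ∩ L₁`. -/
theorem scalable9 (hℓM : ¬ ℓ ∣ M) :
    Scalable R1 ((FL).val : FL →+* LaurentSeries L₁) := by
  haveI : CharP (IsLocalRing.ResidueField R1) ℓ :=
    Level9Aux.charP_residueField_restrict A L₁ hA
  exact Fermat.Agent.S18.Gauss.ModularH.scalable R1 hℓM

include hA in
/-- `3` is a unit of `A ∩ L₁` when `9 ∣ M`, `ℓ ∤ M`. -/
theorem isUnit_three (h9 : 9 ∣ M) (hℓM : ¬ ℓ ∣ M) : IsUnit (3 : R1) := by
  have h3 : ¬ ℓ ∣ 3 := by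
    intro h
    have hℓ3 : ℓ = 3 := (Nat.prime_dvd_prime_iff_eq (Fact.out : ℓ.Prime) Nat.prime_three).mp h
    apply hℓM
    rw [hℓ3]
    exact dvd_trans (by norm_num) h9
  have := Level9Aux.isUnit_natCast_restrict A L₁ hA h3
  simpa using this

include hA in
/-- `A ∩ L₁` is a discrete valuation ring. -/
theorem isDVR : IsDiscreteValuationRing R1 :=
  isDiscreteValuationRing_restrict_of_liesOver A (Fact.out : ℓ.Prime).ne_zero hA L₁

include hA in
/-- **the INST bundle at level 9 over `A ∩ L₁`**, all side hypotheses discharged. -/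
theorem coordData9 (h9 : 9 ∣ M) (hℓM : ¬ ℓ ∣ M)
    (hφ : Scalable R1 ((FL).val : FL →+* LaurentSeries L₁))
    {π : R1} (hπ : Irreducible π) :
    CoordData R1 π (gaussSubring hφ) (Inst.Level9.t9el (L := L₁) M h9) := by
  haveI : CharP (IsLocalRing.ResidueField R1) ℓ :=
    Level9Aux.charP_residueField_restrict A L₁ hA
  haveI : IsDiscreteValuationRing R1 := isDVR A hA L₁
  exact Inst.Level9.coordData9 h9 hℓM hφ hπ

include hA in
/-- **`bundle9` from `LocalOK` on both charts** (= `BundleOf.bundle_of_coordData` at level 9). -/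
theorem bundle9_of_localOK (h9 : 9 ∣ M) (hℓM : ¬ ℓ ∣ M) (hℓm : ¬ ℓ ∣ m)
    (hφ : Scalable R1 ((FL).val : FL →+* LaurentSeries L₁))
    {π : R1} (hcd : CoordData R1 π (gaussSubring hφ) (Inst.Level9.t9el (L := L₁) M h9))
    (hloc : (∀ f : FL, StarAbstract.LocalOK (B0 R1 (Inst.Level9.t9el (L := L₁) M h9))
        ⟨algebraMap R1 FL π, algebraMap_mem_B0 π⟩ f) ∧
      (∀ f : FL, StarAbstract.LocalOK (B1 R1 (Inst.Level9.t9el (L := L₁) M h9))
        ⟨algebraMap R1 FL π, algebraMap_mem_B0 π⟩ f)) :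
    Bundle A L₁ M m :=
  BundleOf.bundle_of_coordData A hA L₁ M m hℓM hℓm hφ hcd hloc.1 hloc.2

/-- **`Trans.Star` at level `9 ∣ M`** from `LocalOK` on both charts of `t₉` over every number
field `L₁ ∋ ρ` (`T0 = {ρ}`): the level-9 top of the chain (`StarBundle.star_of_bundle`). -/
theorem star9_of_localOK (A : ValuationSubring Kb) (hA : A.LiesOverPrime ℓ) (M m : ℕ) [NeZero M]
    (h9 : 9 ∣ M) (hℓM : ¬ ℓ ∣ M) (hℓm : ¬ ℓ ∣ m)
    {ρ : Kb} (hρ : ρ ^ 2 + 9 * ρ + 27 = 0)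
    (H : ∀ (L₁ : IntermediateField ℚ Kb) [FiniteDimensional ℚ L₁] (ρ₁ : L₁),
      ρ₁ ^ 2 + 9 * ρ₁ + 27 = 0 → algebraMap L₁ Kb ρ₁ = ρ →
      ∀ (π : restrict A L₁), Irreducible π →
      (∀ f : laurentBaseChange L₁ (modularFunctionFieldFull M),
        StarAbstract.LocalOK (B0 (restrict A L₁) (Inst.Level9.t9el (L := L₁) M h9))
          ⟨algebraMap (restrict A L₁) (laurentBaseChange L₁ (modularFunctionFieldFull M)) π,
            algebraMap_mem_B0 π⟩ f) ∧
      (∀ f : laurentBaseChange L₁ (modularFunctionFieldFull M),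
        StarAbstract.LocalOK (B1 (restrict A L₁) (Inst.Level9.t9el (L := L₁) M h9))
          ⟨algebraMap (restrict A L₁) (laurentBaseChange L₁ (modularFunctionFieldFull M)) π,
            algebraMap_mem_B0 π⟩ f)) :
    Trans.Star A M m := by
  refine star_of_bundle A M m {ρ} (fun L₁ _ hT => ?_)
  obtain ⟨ρ₁, hρ₁ρ, hρ₁⟩ := Level9Aux.exists_rho_mem hρ L₁ hT
  haveI : IsDiscreteValuationRing (restrict A L₁) := isDVR A hA L₁
  obtain ⟨π, hπ⟩ := IsDiscreteValuationRing.exists_irreducible (restrict A L₁)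
  have hφ := scalable9 A hA L₁ M hℓM
  exact bundle9_of_localOK A hA L₁ M m h9 hℓM hℓm hφ (coordData9 A hA L₁ M h9 hℓM hφ hπ)
    (H L₁ ρ₁ hρ₁ hρ₁ρ π hπ)

end Fermat.Agent.S18.Final.Level9
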