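import Mathlib
import Fermat.Agent.S18.Final.Level9
import Fermat.Agent.S18.Final.Level4
import Fermat.Agent.S18.Inst.Level9Final

/-!
# S18, level `9 ∣ M`: `Star` from the four Kummer statements (twin of `Final/Star4`)

* `Hloc9 A hℓM hπ h9 r` : the four Kummer statements at level `9 ∣ M` for a general discrete
  valuation subring `A` of a field `L` of characteristic zero, residue characteristic `ℓ ∤ M`,
  uniformiser `π`, `r ∈ A` a root of `X² + 9 X + 27`: the finite cusp values `0, r, r'` on the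
  chart `B0`, and `∞` on the chart `B1`, in the VERBATIM shape of
  `Final/Level9.localOK9_of_kummer` at `h := Level9Final.coordData9 h9 A hℓM hπ`,
  `ρ := Level9Final.rho9 A hℓM`, `t := Level9Final.tEl M h9`;
* `star9_of_hloc` : `Trans.Star A M m` for `9 ∣ M`, `ℓ ∤ M m`, from `Hloc9` over every
  `(L₁, A ∩ L₁, π, r)`;
* `star9Hyp_of_hloc` : the level-9 input (`Star9Hyp`, unfolded) of `StarAllHyp.star_all_of`.
-/

set_option autoImplicit false
set_option linter.unusedSectionVars false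
set_option linter.style.haveILetI false

open ModularCurve AlgebraicCurve Polynomial IsLocalRing

namespace Fermat.Agent.S18.Final.Star9

open Fermat.Agent.S18.Descent Fermat.Agent.S18.Gauss.Basic
  Fermat.Agent.S18.Core.Charts Fermat.Agent.S18.Core
  Fermat.Agent.S18.Inst.Bundle Fermat.Agent.S18.Trans Fermat.Agent.S18.Core.StarBundle
  Fermat.Agent.S18.Cusp.ChartLocalOK Fermat.Agent.S18.Gauss Fermat.Agent.S18.Inst
  IntermediateField

set_option synthInstance.maxHeartbeats 400000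

local notation "Kb" => AlgebraicClosure ℚ

/-- the four Kummer statements at level `9 ∣ M` (finite cusp values `0, r, r'` on the chart `B0`,
`∞` on the chart `B1`), in the shape of `Final/Level9.localOK9_of_kummer`. -/
def Hloc9 {L : Type*} [Field L] [Algebra ℚ L] {M : ℕ} [NeZero M]
    (A : ValuationSubring L) {ℓ : ℕ} [Fact ℓ.Prime] [CharP (ResidueField A) ℓ] (hℓM : ¬ ℓ ∣ M)
    [IsDiscreteValuationRing A] {π : A} (hπ : Irreducible π) (h9 : 9 ∣ M) (r : A) : Prop :=
  (∀ i, ∃ k : ℕ, ∀ z : ↥(modularFunctionFieldFullC (ResidueField A) M),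
    IsIntegral (resB0 (Level9Final.coordData9 h9 A hℓM hπ).good (Level9Final.rho9 A hℓM)).range z →
    ∃ b : ↥(B0 ↥A (Level9Final.tEl (L := L) M h9)),
      resB0 (Level9Final.coordData9 h9 A hℓM hπ).good (Level9Final.rho9 A hℓM)
        ⟨aeval (Level9Final.tEl (L := L) M h9)
          ((Final.Level9.g9 r i).comp (X - C (Final.Level9.a9 r i))), aeval_mem_B0 _⟩ ^ k * z =
        resB0 (Level9Final.coordData9 h9 A hℓM hπ).good (Level9Final.rho9 A hℓM) b) ∧
  (∃ k : ℕ, ∀ z : ↥(modularFunctionFieldFullC (ResidueField A) M),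
    IsIntegral (resB0 (Level9Final.coordData9 h9 A hℓM hπ).good.inv
      (Level9Final.rho9 A hℓM)).range z →
    ∃ b : ↥(B0 ↥A (Level9Final.tEl (L := L) M h9)⁻¹),
      resB0 (Level9Final.coordData9 h9 A hℓM hπ).good.inv (Level9Final.rho9 A hℓM)
        ⟨aeval (Level9Final.tEl (L := L) M h9)⁻¹
          ((Final.Level9.Ginf9 : (↥A)[X]).comp (X - C 0)), aeval_mem_B0 _⟩ ^ k * z =
        resB0 (Level9Final.coordData9 h9 A hℓM hπ).good.inv (Level9Final.rho9 A hℓM) b)

section Levels

variable {ℓ : ℕ} [Fact ℓ.Prime] (A : ValuationSubring Kb) (hA : A.LiesOverPrime ℓ)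
  (M m : ℕ) [NeZero M] (hℓM : ¬ ℓ ∣ M) (hℓm : ¬ ℓ ∣ m)

include hA hℓm in
/-- **`Star` at level `9 ∣ M`** (`ℓ ∤ M m`, any such `ℓ`) from the four Kummer statements over
every number field containing a root of `X² + 9 X + 27`. -/
theorem star9_of_hloc (h9 : 9 ∣ M)
    (H : ∀ (L₁ : IntermediateField ℚ Kb) [FiniteDimensional ℚ L₁]
      [CharP (ResidueField (restrict A L₁)) ℓ] [IsDiscreteValuationRing (restrict A L₁)]
      (π : restrict A L₁) (hπ : Irreducible π) (r : restrict A L₁),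
      r ^ 2 + 9 * r + 27 = 0 → Hloc9 (restrict A L₁) hℓM hπ h9 r) :
    Trans.Star A M m := by
  obtain ⟨ρ, hρ⟩ := Final.Level9Aux.exists_rho
  refine Final.Level9.star9_of_localOK A hA M m h9 hℓM hℓm hρ
    (fun L₁ _ ρ₁ hρ₁ _ π hπ => ?_)
  haveI : CharP (ResidueField (restrict A L₁)) ℓ :=
    Final.Level4.charP_residueField_restrict A hA L₁
  haveI : IsDiscreteValuationRing (restrict A L₁) := Final.Level9.isDVR A hA L₁
  obtain ⟨h0, hinf⟩ := H L₁ π hπ (Final.Level9Aux.rhoR A L₁ hρ₁) (Final.Level9Aux.rhoR_root A hρ₁)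
  exact Final.Level9.localOK9_of_kummer (Level9Final.coordData9 h9 (restrict A L₁) hℓM hπ)
    (Final.Level9Aux.rhoR_root A hρ₁) (Final.Level9.isUnit_three A hA L₁ M h9 hℓM)
    (Level9Final.rho9 (restrict A L₁) hℓM) (Level9Final.rho9_eq_zero_iff (restrict A L₁) hℓM)
    (fun a => Level9Final.rho9_algebraMap (restrict A L₁) hℓM a _) h0 hinf

end Levels

/-- The level-9 input of `Final/StarAllHyp.star_all_of` (this is `StarAllHyp.Star9Hyp` unfolded;
stated explicitly so that this file does not depend on it) from the four Kummer statements at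
level 9 for general `(L, A, π, r)`. -/
theorem star9Hyp_of_hloc
    (H : ∀ {L : Type} [Field L] [Algebra ℚ L] {M : ℕ} [NeZero M] (A : ValuationSubring L)
      {ℓ : ℕ} [Fact ℓ.Prime] [CharP (ResidueField A) ℓ] (hℓM : ¬ ℓ ∣ M)
      [IsDiscreteValuationRing A] {π : A} (hπ : Irreducible π) (h9 : 9 ∣ M) (r : A),
      r ^ 2 + 9 * r + 27 = 0 → Hloc9 A hℓM hπ h9 r) :
    ∀ (A : ValuationSubring Kb), A.LiesOverPrime 2 →
      ∀ (M m : ℕ) [NeZero M], 9 ∣ M → ¬ 2 ∣ M → ¬ 2 ∣ m → Trans.Star A M m := by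
  intro A hA M m _ h9 h2M h2m
  haveI : Fact (Nat.Prime 2) := ⟨Nat.prime_two⟩
  exact star9_of_hloc A hA M m h2M h2m h9
    (fun L₁ _ _ _ π hπ r hr => H (restrict A L₁) h2M hπ h9 r hr)

end Fermat.Agent.S18.Final.Star9
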