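import Mathlib
import Fermat.Agent.S18.Trans.Star

/-!
# S18, top of the chain: `Trans.Star A N m` for all `N`, `ℓ ∤ N m`

`star_all_of` : the case split `ℓ` odd (auxiliary level `4 N`) / `ℓ = 2` (auxiliary level `9 N`),
with the three top inputs as hypotheses: descent of `Star` from a multiple of the level,
`Star` at the levels divisible by `4` (`ℓ` odd) and at the levels divisible by `9` (`ℓ = 2`).
-/

set_option autoImplicit false

open ModularCurve

namespace Fermat.Agent.S18.Final.StarAll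

local notation "Kb" => AlgebraicClosure ℚ

/-- the case split `ℓ ≠ 2` / `ℓ = 2`, hypothesis-style. -/
theorem star_all_of (N : ℕ) [NeZero N] {ℓ : ℕ} [Fact ℓ.Prime] (hℓN : ¬ ℓ ∣ N)
    (A : ValuationSubring Kb) (m : ℕ)
    (hmul : ∀ (N M : ℕ) [NeZero N] [NeZero M], N ∣ M → ¬ ℓ ∣ M →
      Trans.Star A M m → Trans.Star A N m)
    (h4 : ℓ ≠ 2 → ∀ (M : ℕ) [NeZero M], 4 ∣ M → ¬ ℓ ∣ M → Trans.Star A M m)
    (h9 : ℓ = 2 → ∀ (M : ℕ) [NeZero M], 9 ∣ M → ¬ ℓ ∣ M → Trans.Star A M m) :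
    Trans.Star A N m := by
  have hℓ : ℓ.Prime := Fact.out
  have hN0 : N ≠ 0 := NeZero.ne N
  by_cases h2 : ℓ = 2
  · -- auxiliary level `9 N`
    haveI : NeZero (9 * N) := ⟨Nat.mul_ne_zero (by norm_num) hN0⟩
    have hℓM : ¬ ℓ ∣ 9 * N := by
      intro h
      rcases (Nat.Prime.dvd_mul hℓ).mp h with h' | h'
      · rw [h2] at h'
        norm_num at h'
      · exact hℓN h'
    exact hmul N (9 * N) (Dvd.intro_left 9 rfl) hℓM
      (h9 h2 (9 * N) (Dvd.intro N rfl) hℓM)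
  · -- auxiliary level `4 N`
    haveI : NeZero (4 * N) := ⟨Nat.mul_ne_zero (by norm_num) hN0⟩
    have hℓM : ¬ ℓ ∣ 4 * N := by
      intro h
      rcases (Nat.Prime.dvd_mul hℓ).mp h with h' | h'
      · have h4' : ℓ ∣ 2 ^ 2 := by norm_num; exact h'
        have := (Nat.prime_dvd_prime_iff_eq hℓ Nat.prime_two).mp (hℓ.dvd_of_dvd_pow h4')
        exact h2 this
      · exact hℓN h'
    exact hmul N (4 * N) (Dvd.intro_left 4 rfl) hℓM
      (h4 h2 (4 * N) (Dvd.intro N rfl) hℓM)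

end Fermat.Agent.S18.Final.StarAll
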