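import Fermat.Agent.S18.Final.Cusps

/-!
# S18, final plumbing: Theorem N export in the `LocalGen` form

From the same hypotheses as `Final/Cusps` (Kummer instances at the finite cusp values and at
infinity, partitions of unity): `NormalBridge.LocalGen π n` at EVERY maximal ideal `n ∋ π` of the
two charts `B0 R τ` and `B1 R τ`, and the normality of the images of both charts in `E`.
-/

open Polynomial IntermediateField

namespace Fermat.Agent.S18.Final.CuspsGen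

open Fermat.Agent.S18.Core.Charts Fermat.Agent.S18.Core Fermat.Agent.S18.Cusp
open Fermat.Agent.S18.Cusp.ChartLocalOK Fermat.Agent.S18.Final.Cover
open Fermat.Agent.S18.Final.Cusps

set_option linter.unusedSectionVars false
set_option linter.style.haveILetI false

variable {R L F : Type*} [CommRing R] [IsDomain R] [IsDiscreteValuationRing R]
  [Field L] [Field F] [Algebra R L] [IsFractionRing R L] [Algebra L F] [Algebra R F]
  [IsScalarTower R L F] {π : R} {O : ValuationSubring F} {τ : F} {E : Type*} [Field E]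
  [Algebra (IsLocalRing.ResidueField R) E]

/-- The image of the chart `B1` is integrally closed in `E` (all of `E`), from the cusp data. -/
theorem mem_range_resB1_of_cusps (h : GoodCoord π O τ) (ρ : ↥O →+* E)
    (hρR : ∀ r : R, ρ ⟨algebraMap R F r, h.algebraMap_mem r⟩ =
      algebraMap (IsLocalRing.ResidueField R) E (IsLocalRing.residue R r))
    {ι0 : Type*} [Fintype ι0] (G0 c0 : ι0 → R[X]) (hG0 : ∑ i, c0 i * G0 i = 1)
    (hloc0 : ∀ i, ∀ z : E, IsIntegral (resB0 h ρ).range z →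
      ∃ (k : ℕ) (b : ↥(B0 R τ)),
        resB0 h ρ ⟨aeval τ (G0 i), aeval_mem_B0 (G0 i)⟩ ^ k * z = resB0 h ρ b)
    (Ginf cX cinf : R[X]) (hG1 : cX * X + cinf * Ginf = 1)
    (hlocinf : ∀ z : E, IsIntegral (resB1 h ρ).range z →
      ∃ (k : ℕ) (b : ↥(B1 R τ)),
        resB1 h ρ ⟨aeval τ⁻¹ Ginf, aeval_mem_B0 Ginf⟩ ^ k * z = resB1 h ρ b)
    (z : E) (hz : IsIntegral (resB1 h ρ).range z) : ∃ b : ↥(B1 R τ), resB1 h ρ b = z := by
  have hN0 := mem_range_resB0_of_polyCover h ρ G0 c0 hG0 hloc0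
  refine mem_range_resB0_of_polyCover h.inv ρ ![X, Ginf] ![cX, cinf] ?_ ?_ z hz
  · rw [Fin.sum_univ_two]
    exact hG1
  · intro i
    fin_cases i
    · intro z hz
      obtain ⟨k, b, hb⟩ := TheoremN.hloc_B1_tau_inv h ρ hρR hN0 z hz
      refine ⟨k, b, ?_⟩
      have hX : (⟨aeval τ⁻¹ (X : R[X]), aeval_mem_B0 X⟩ : ↥(B0 R τ⁻¹)) =
          ⟨τ⁻¹, tau_inv_mem_B1⟩ := Subtype.ext (aeval_X _)
      change resB0 h.inv ρ ⟨aeval τ⁻¹ (X : R[X]), aeval_mem_B0 X⟩ ^ k * z = resB0 h.inv ρ b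
      rw [hX]
      exact hb
    · intro z hz
      exact hlocinf z hz

/-- **Theorem N export, `LocalGen` form**: `(N_n)` at every maximal ideal containing `π` of both
charts. -/
theorem localGen_of_cusps (h : GoodCoord π O τ) (K : IntermediateField L F) (hK : K = L⟮τ⟯)
    (halg : Algebra.IsAlgebraic K F)
    (huniq : ∀ O'' : ValuationSubring F,
      O''.comap (algebraMap K F) = O.comap (algebraMap K F) → O'' = O)
    [IsNoetherianRing ↥(B0 R τ)] [IsNoetherianRing ↥(B1 R τ)]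
    (ρ : ↥O →+* E) (hρ : ∀ x : ↥O, ρ x = 0 ↔ O.valuation (x : F) < 1)
    (hρR : ∀ r : R, ρ ⟨algebraMap R F r, h.algebraMap_mem r⟩ =
      algebraMap (IsLocalRing.ResidueField R) E (IsLocalRing.residue R r))
    {ι0 : Type*} [Fintype ι0] (G0 c0 : ι0 → R[X]) (hG0 : ∑ i, c0 i * G0 i = 1)
    (hloc0 : ∀ i, ∀ z : E, IsIntegral (resB0 h ρ).range z →
      ∃ (k : ℕ) (b : ↥(B0 R τ)),
        resB0 h ρ ⟨aeval τ (G0 i), aeval_mem_B0 (G0 i)⟩ ^ k * z = resB0 h ρ b)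
    (Ginf cX cinf : R[X]) (hG1 : cX * X + cinf * Ginf = 1)
    (hlocinf : ∀ z : E, IsIntegral (resB1 h ρ).range z →
      ∃ (k : ℕ) (b : ↥(B1 R τ)),
        resB1 h ρ ⟨aeval τ⁻¹ Ginf, aeval_mem_B0 Ginf⟩ ^ k * z = resB1 h ρ b) :
    (∀ (n : Ideal ↥(B0 R τ)) [n.IsMaximal],
        (⟨algebraMap R F π, algebraMap_mem_B0 π⟩ : ↥(B0 R τ)) ∈ n →
        NormalBridge.LocalGen (⟨algebraMap R F π, algebraMap_mem_B0 π⟩ : ↥(B0 R τ)) n) ∧
    (∀ (n : Ideal ↥(B1 R τ)) [n.IsMaximal],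
        (⟨algebraMap R F π, algebraMap_mem_B0 π⟩ : ↥(B1 R τ)) ∈ n →
        NormalBridge.LocalGen (⟨algebraMap R F π, algebraMap_mem_B0 π⟩ : ↥(B1 R τ)) n) := by
  have hN0 := mem_range_resB0_of_polyCover h ρ G0 c0 hG0 hloc0
  have hN1 := mem_range_resB1_of_cusps h ρ hρR G0 c0 hG0 hloc0 Ginf cX cinf hG1 hlocinf
  refine ⟨fun n hn hπn => ?_, fun n hn hπn => ?_⟩
  · exact localGen_B0 h K hK halg huniq ρ hρ
      (fun a b _ hint => by
        obtain ⟨c, hc⟩ := hN0 _ hint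
        exact ⟨c, hc⟩) n hπn
  · exact localGen_B1 h K hK halg huniq ρ hρ
      (fun a b _ hint => by
        obtain ⟨c, hc⟩ := hN1 _ hint
        exact ⟨c, hc⟩) n hπn

section CoordData

open Fermat.Agent.S18.Inst.Bundle

variable {L' : Type*} [Field L'] [CharZero L'] {A : ValuationSubring L'}
  [IsDiscreteValuationRing A] {F' : Type*} [Field F'] [Algebra L' F'] {ϖ : A}
  {O' : ValuationSubring F'} {t : F'} {E' : Type*} [Field E']
  [Algebra (IsLocalRing.ResidueField ↥A) E']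

/-- **Theorem N export for the INST bundle** (`R := ↥A`): `(N_n)` at every maximal ideal
containing `ϖ` of both charts. -/
theorem localGen_of_coordData_cusps (h : CoordData A ϖ O' t)
    (ρ : ↥O' →+* E') (hρ : ∀ x : ↥O', ρ x = 0 ↔ O'.valuation (x : F') < 1)
    (hρR : ∀ r : ↥A, ρ ⟨algebraMap ↥A F' r, h.good.algebraMap_mem r⟩ =
      algebraMap (IsLocalRing.ResidueField ↥A) E' (IsLocalRing.residue ↥A r))
    {ι0 : Type*} [Fintype ι0] (G0 c0 : ι0 → (↥A)[X]) (hG0 : ∑ i, c0 i * G0 i = 1)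
    (hloc0 : ∀ i, ∀ z : E', IsIntegral (resB0 h.good ρ).range z →
      ∃ (k : ℕ) (b : ↥(B0 ↥A t)),
        resB0 h.good ρ ⟨aeval t (G0 i), aeval_mem_B0 (G0 i)⟩ ^ k * z = resB0 h.good ρ b)
    (Ginf cX cinf : (↥A)[X]) (hG1 : cX * X + cinf * Ginf = 1)
    (hlocinf : ∀ z : E', IsIntegral (resB1 h.good ρ).range z →
      ∃ (k : ℕ) (b : ↥(B1 ↥A t)),
        resB1 h.good ρ ⟨aeval t⁻¹ Ginf, aeval_mem_B0 Ginf⟩ ^ k * z = resB1 h.good ρ b) :
    (∀ (n : Ideal ↥(B0 ↥A t)) [n.IsMaximal],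
        (⟨algebraMap ↥A F' ϖ, algebraMap_mem_B0 ϖ⟩ : ↥(B0 ↥A t)) ∈ n →
        NormalBridge.LocalGen (⟨algebraMap ↥A F' ϖ, algebraMap_mem_B0 ϖ⟩ : ↥(B0 ↥A t)) n) ∧
    (∀ (n : Ideal ↥(B1 ↥A t)) [n.IsMaximal],
        (⟨algebraMap ↥A F' ϖ, algebraMap_mem_B0 ϖ⟩ : ↥(B1 ↥A t)) ∈ n →
        NormalBridge.LocalGen (⟨algebraMap ↥A F' ϖ, algebraMap_mem_B0 ϖ⟩ : ↥(B1 ↥A t)) n) := by
  have hfin := h.finite
  have hsep := h.separable
  have halg := h.algebraic
  haveI := ChartsInst.isNoetherianRing_B0 h.good L'⟮t⟯ rfl hfin hsep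
  haveI := ChartsInst.isNoetherianRing_B1 h.good L'⟮t⟯ rfl hfin hsep
  exact localGen_of_cusps h.good L'⟮t⟯ rfl halg h.uniq ρ hρ hρR G0 c0 hG0 hloc0 Ginf cX cinf
    hG1 hlocinf

end CoordData

end Fermat.Agent.S18.Final.CuspsGen
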