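import Mathlib
import Fermat.Agent.S18.Final.Level9
import Fermat.Agent.S18.Final.CuspsGen

/-!
# S18 / S37 (level 9): Theorem N export in the `LocalGen` form at level `9 ∣ M`

The E-twin of `Final/Level9.localOK9` / `localOK9_of_kummer`: from the SAME four Kummer statements
(the finite cusp values `0, ρ, ρ'` on the chart `B0`, and `∞` on the chart `B1`) conclude
`NormalBridge.LocalGen π n` at EVERY maximal ideal `n ∋ π` of the two charts `B0 A t`, `B1 A t`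
(`Final/CuspsGen.localGen_of_coordData_cusps` with the level-9 cover data `G9`, `c9`, `Ginf9`).
-/

set_option autoImplicit false
set_option linter.unusedSectionVars false
set_option linter.style.haveILetI false

open Polynomial

namespace Fermat.Agent.S18.Final.Level9

open Fermat.Agent.S18.Core.Charts Fermat.Agent.S18.Core Fermat.Agent.S18.Cusp
  Fermat.Agent.S18.Inst.Bundle Fermat.Agent.S18.Cusp.ChartLocalOK
  Fermat.Agent.S18.Cusp.Level9Poly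

section Generic

variable {L' : Type*} [Field L'] [CharZero L'] {A' : ValuationSubring L'}
  [IsDiscreteValuationRing A'] {F' : Type*} [Field F'] [Algebra L' F'] {ϖ : A'}
  {O' : ValuationSubring F'} {t : F'} {E' : Type*} [Field E']
  [Algebra (IsLocalRing.ResidueField ↥A') E']

/-- **`LocalGen` at every closed point of both charts at level 9** from the four Kummer
statements (shape of `Final/Cusps`). -/
theorem localGen9 (h : CoordData A' ϖ O' t) {r : A'} (hr : r ^ 2 + 9 * r + 27 = 0)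
    (h3 : IsUnit (3 : A'))
    (ρ : ↥O' →+* E') (hρ : ∀ x : ↥O', ρ x = 0 ↔ O'.valuation (x : F') < 1)
    (hρR : ∀ a : ↥A', ρ ⟨algebraMap ↥A' F' a, h.good.algebraMap_mem a⟩ =
      algebraMap (IsLocalRing.ResidueField ↥A') E' (IsLocalRing.residue ↥A' a))
    (hloc0 : ∀ i, ∀ z : E', IsIntegral (resB0 h.good ρ).range z →
      ∃ (k : ℕ) (b : ↥(B0 ↥A' t)),
        resB0 h.good ρ ⟨aeval t (G9 r i), aeval_mem_B0 (G9 r i)⟩ ^ k * z = resB0 h.good ρ b)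
    (hlocinf : ∀ z : E', IsIntegral (resB1 h.good ρ).range z →
      ∃ (k : ℕ) (b : ↥(B1 ↥A' t)),
        resB1 h.good ρ ⟨aeval t⁻¹ (Ginf9 : (↥A')[X]), aeval_mem_B0 Ginf9⟩ ^ k * z =
          resB1 h.good ρ b) :
    (∀ (n : Ideal ↥(B0 ↥A' t)) [n.IsMaximal],
        (⟨algebraMap ↥A' F' ϖ, algebraMap_mem_B0 ϖ⟩ : ↥(B0 ↥A' t)) ∈ n →
        NormalBridge.LocalGen (⟨algebraMap ↥A' F' ϖ, algebraMap_mem_B0 ϖ⟩ : ↥(B0 ↥A' t)) n) ∧
    (∀ (n : Ideal ↥(B1 ↥A' t)) [n.IsMaximal],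
        (⟨algebraMap ↥A' F' ϖ, algebraMap_mem_B0 ϖ⟩ : ↥(B1 ↥A' t)) ∈ n →
        NormalBridge.LocalGen (⟨algebraMap ↥A' F' ϖ, algebraMap_mem_B0 ϖ⟩ : ↥(B1 ↥A' t)) n) := by
  obtain ⟨u3, hu3⟩ := h3
  have hu : (3 : ↥A') * ((u3⁻¹ : (↥A')ˣ) : ↥A') = 1 := by
    rw [← hu3]; exact u3.mul_inv
  exact CuspsGen.localGen_of_coordData_cusps h ρ hρ hρR (G9 r)
    (c9 r ((u3⁻¹ : (↥A')ˣ) : ↥A')) (cover9 hr _ hu) hloc0 Ginf9 (-(27 * X + 9)) 1 coverInf9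
    hlocinf

/-- the same from the conclusions of `Cusp/KummerHloc.hloc_of_kummer_package` (uniform exponent,
cover polynomials written as `g(X - a)`). -/
theorem localGen9_of_kummer (h : CoordData A' ϖ O' t) {r : A'} (hr : r ^ 2 + 9 * r + 27 = 0)
    (h3 : IsUnit (3 : A'))
    (ρ : ↥O' →+* E') (hρ : ∀ x : ↥O', ρ x = 0 ↔ O'.valuation (x : F') < 1)
    (hρR : ∀ a : ↥A', ρ ⟨algebraMap ↥A' F' a, h.good.algebraMap_mem a⟩ =
      algebraMap (IsLocalRing.ResidueField ↥A') E' (IsLocalRing.residue ↥A' a))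
    (hloc0 : ∀ i, ∃ k : ℕ, ∀ z : E', IsIntegral (resB0 h.good ρ).range z →
      ∃ b : ↥(B0 ↥A' t),
        resB0 h.good ρ ⟨aeval t ((g9 r i).comp (X - C (a9 r i))), aeval_mem_B0 _⟩ ^ k * z =
          resB0 h.good ρ b)
    (hlocinf : ∃ k : ℕ, ∀ z : E', IsIntegral (resB0 h.good.inv ρ).range z →
      ∃ b : ↥(B0 ↥A' t⁻¹),
        resB0 h.good.inv ρ ⟨aeval t⁻¹ ((Ginf9 : (↥A')[X]).comp (X - C 0)), aeval_mem_B0 _⟩ ^ k * z =
          resB0 h.good.inv ρ b) :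
    (∀ (n : Ideal ↥(B0 ↥A' t)) [n.IsMaximal],
        (⟨algebraMap ↥A' F' ϖ, algebraMap_mem_B0 ϖ⟩ : ↥(B0 ↥A' t)) ∈ n →
        NormalBridge.LocalGen (⟨algebraMap ↥A' F' ϖ, algebraMap_mem_B0 ϖ⟩ : ↥(B0 ↥A' t)) n) ∧
    (∀ (n : Ideal ↥(B1 ↥A' t)) [n.IsMaximal],
        (⟨algebraMap ↥A' F' ϖ, algebraMap_mem_B0 ϖ⟩ : ↥(B1 ↥A' t)) ∈ n →
        NormalBridge.LocalGen (⟨algebraMap ↥A' F' ϖ, algebraMap_mem_B0 ϖ⟩ : ↥(B1 ↥A' t)) n) := by
  refine localGen9 h hr h3 ρ hρ hρR (fun i z hz => ?_) (fun z hz => ?_)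
  · obtain ⟨k, hk⟩ := hloc0 i
    obtain ⟨b, hb⟩ := hk z hz
    refine ⟨k, b, ?_⟩
    have e1 : (⟨aeval t (G9 r i), aeval_mem_B0 (G9 r i)⟩ : ↥(B0 ↥A' t)) =
        ⟨aeval t ((g9 r i).comp (X - C (a9 r i))), aeval_mem_B0 _⟩ :=
      Subtype.ext (by rw [g9_comp hr i])
    rw [e1]
    exact hb
  · obtain ⟨k, hk⟩ := hlocinf
    obtain ⟨b, hb⟩ := hk z hz
    refine ⟨k, b, ?_⟩
    have e1 : (⟨aeval t⁻¹ (Ginf9 : (↥A')[X]), aeval_mem_B0 Ginf9⟩ : ↥(B0 ↥A' t⁻¹)) =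
        ⟨aeval t⁻¹ ((Ginf9 : (↥A')[X]).comp (X - C 0)), aeval_mem_B0 _⟩ :=
      Subtype.ext (by rw [Ginf9_comp])
    change resB0 h.good.inv ρ ⟨aeval t⁻¹ (Ginf9 : (↥A')[X]), aeval_mem_B0 Ginf9⟩ ^ k * z =
      resB0 h.good.inv ρ b
    rw [e1]
    exact hb

end Generic

end Fermat.Agent.S18.Final.Level9
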