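import Fermat.Agent.S18.Cusp.ChartLocalOK
import Fermat.Agent.S18.Cusp.NormalGlue
import Fermat.Agent.S18.Core.ChartsInst
import Fermat.Agent.S18.Core.StarTop
import Fermat.Agent.S18.Inst.Bundle

/-!
# S18, final plumbing: the two-chart cover form of Theorem N ⟹ `hstar`

Setting of `Core/Charts` (`R` a DVR with uniformiser `π`, `L = Frac R`, `F ⊇ L`, `O` a valuation
subring of `F`, `h : GoodCoord π O τ`) with an abstract residue map `ρ : O →+* E` whose kernel is
`{v < 1}` (as in `Cusp/ChartLocalOK`).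

* `polyToB1`, `resB0_polyToB0`, `resB1_polyToB1` : polynomial elements of the two charts.
* `isIntegralElem_comp_of_isIntegral_range` : an element of `E` integral over the image of the
  chart `B0 R τ` is integral over the image of `R[τ]` (so upstream statements may assume the
  weaker hypothesis "integral over the image of `R[τ]`").
* `localOK_B0_of_polyCover`, `localOK_B1_of_polyCover` : `LocalOK` for every `f` from the
  element form of "the image of `B[1/G i]` is integrally closed" for polynomial cover elements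
  `G i (τ)` (resp. `G i (τ⁻¹)`) with a partition of unity `∑ c i * G i = 1` in `R[X]`.
* `hstar_of_polyCover` : the conclusion of `StarTop.hstar_of_charts` from the two covers, with
  the four chart instances discharged by `Core/ChartsInst`.
* `localOK_of_coordData`, `hstar_of_coordData_polyCover` : the same for the INST bundle
  `Inst.Bundle.CoordData A π O t` (`R := ↥A`).
-/

open Polynomial IntermediateField

namespace Fermat.Agent.S18.Final.Cover

open Fermat.Agent.S18.Core.Charts Fermat.Agent.S18.Core Fermat.Agent.S18.Cusp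
open Fermat.Agent.S18.Cusp.ChartLocalOK AlgebraicCurve

set_option linter.unusedSectionVars false
set_option linter.style.haveILetI false

variable {R L F : Type*} [CommRing R] [IsDomain R] [IsDiscreteValuationRing R]
  [Field L] [Field F] [Algebra R L] [IsFractionRing R L] [Algebra L F] [Algebra R F]
  [IsScalarTower R L F] {π : R} {O : ValuationSubring F} {τ : F} {E : Type*} [Field E]

/-- `R[X] → B1 R τ`, `X ↦ τ⁻¹` -/
noncomputable def polyToB1 (R : Type*) [CommRing R] {F : Type*} [Field F] [Algebra R F] (τ : F) :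
    R[X] →+* ↥(B1 R τ) :=
  polyToB0 R τ⁻¹

theorem coe_polyToB0 (p : R[X]) : ((polyToB0 R τ p : ↥(B0 R τ)) : F) = aeval τ p := rfl

theorem coe_polyToB1 (p : R[X]) : ((polyToB1 R τ p : ↥(B1 R τ)) : F) = aeval τ⁻¹ p := rfl

theorem resB0_polyToB0 (h : GoodCoord π O τ) (ρ : ↥O →+* E) (p : R[X]) :
    resB0 h ρ (polyToB0 R τ p) = ρ ⟨aeval τ p, B0_le h (aeval_mem_B0 p)⟩ := rfl

theorem resB1_polyToB1 (h : GoodCoord π O τ) (ρ : ↥O →+* E) (p : R[X]) :
    resB1 h ρ (polyToB1 R τ p) = ρ ⟨aeval τ⁻¹ p, B1_le h (aeval_mem_B0 p)⟩ := rfl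

/-- Every element of the chart `B0 R τ` is integral over `R[X]` along `X ↦ τ`. -/
theorem polyToB0_isIntegral : (polyToB0 R τ).IsIntegral := by
  intro b
  obtain ⟨q, hq, hqb⟩ := (isIntegral_adjoin_iff τ (b : F)).mp (mem_B0.mp b.2)
  refine ⟨q, hq, ?_⟩
  apply Subtype.ext
  have := Polynomial.hom_eval₂ q (polyToB0 R τ) (B0 R τ).subtype b
  rw [Subring.coe_subtype] at this
  rw [this]
  exact hqb

/-- An element of `E` integral over the image of the chart `B0 R τ` is integral over the image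
of `R[τ]`. -/
theorem isIntegralElem_comp_of_isIntegral_range (h : GoodCoord π O τ) (ρ : ↥O →+* E) (z : E)
    (hz : IsIntegral (resB0 h ρ).range z) :
    ((resB0 h ρ).comp (polyToB0 R τ)).IsIntegralElem z := by
  have hz' : (resB0 h ρ).IsIntegralElem z :=
    (NormalGlue.isIntegralElem_iff_isIntegral_range (resB0 h ρ) z).mpr hz
  letI a1 : Algebra R[X] ↥(B0 R τ) := (polyToB0 R τ).toAlgebra
  letI a2 : Algebra ↥(B0 R τ) E := (resB0 h ρ).toAlgebra
  letI a3 : Algebra R[X] E := ((resB0 h ρ).comp (polyToB0 R τ)).toAlgebra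
  haveI : IsScalarTower R[X] ↥(B0 R τ) E := IsScalarTower.of_algebraMap_eq fun _ => rfl
  haveI : Algebra.IsIntegral R[X] ↥(B0 R τ) := ⟨polyToB0_isIntegral⟩
  exact isIntegral_trans (R := R[X]) (A := ↥(B0 R τ)) z hz'

/-- The same for the chart `B1 R τ`. -/
theorem isIntegralElem_comp_of_isIntegral_range' (h : GoodCoord π O τ) (ρ : ↥O →+* E) (z : E)
    (hz : IsIntegral (resB1 h ρ).range z) :
    ((resB1 h ρ).comp (polyToB1 R τ)).IsIntegralElem z :=
  isIntegralElem_comp_of_isIntegral_range h.inv ρ z hz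

/-- **Polynomial cover form ⟹ `LocalOK`** for the chart `B0 R τ`. -/
theorem localOK_B0_of_polyCover (h : GoodCoord π O τ) (K : IntermediateField L F)
    (hK : K = L⟮τ⟯) (halg : Algebra.IsAlgebraic K F)
    (huniq : ∀ O'' : ValuationSubring F,
      O''.comap (algebraMap K F) = O.comap (algebraMap K F) → O'' = O)
    [IsNoetherianRing ↥(B0 R τ)]
    (ρ : ↥O →+* E) (hρ : ∀ x : ↥O, ρ x = 0 ↔ O.valuation (x : F) < 1)
    {ι : Type*} [Fintype ι] (G c : ι → R[X]) (hG : ∑ i, c i * G i = 1)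
    (hloc : ∀ i, ∀ z : E, IsIntegral (resB0 h ρ).range z →
      ∃ (k : ℕ) (b : ↥(B0 R τ)), resB0 h ρ (polyToB0 R τ (G i)) ^ k * z = resB0 h ρ b)
    (f : F) :
    StarAbstract.LocalOK (B0 R τ) ⟨algebraMap R F π, algebraMap_mem_B0 π⟩ f := by
  refine localOK_B0_of_cover h K hK halg huniq ρ hρ (fun i => polyToB0 R τ (G i)) ?_ hloc f
  refine span_rangeRestrict_eq_top (resB0 h ρ) _ Finset.univ (fun i => polyToB0 R τ (c i)) ?_
  have : ∑ i, polyToB0 R τ (c i) * polyToB0 R τ (G i) = 1 := by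
    simp only [← map_mul, ← map_sum, hG, map_one]
  rw [this, map_one]

/-- **Polynomial cover form ⟹ `LocalOK`** for the chart `B1 R τ`. -/
theorem localOK_B1_of_polyCover (h : GoodCoord π O τ) (K : IntermediateField L F)
    (hK : K = L⟮τ⟯) (halg : Algebra.IsAlgebraic K F)
    (huniq : ∀ O'' : ValuationSubring F,
      O''.comap (algebraMap K F) = O.comap (algebraMap K F) → O'' = O)
    [hnoeth : IsNoetherianRing ↥(B1 R τ)]
    (ρ : ↥O →+* E) (hρ : ∀ x : ↥O, ρ x = 0 ↔ O.valuation (x : F) < 1)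
    {ι : Type*} [Fintype ι] (G c : ι → R[X]) (hG : ∑ i, c i * G i = 1)
    (hloc : ∀ i, ∀ z : E, IsIntegral (resB1 h ρ).range z →
      ∃ (k : ℕ) (b : ↥(B1 R τ)), resB1 h ρ (polyToB1 R τ (G i)) ^ k * z = resB1 h ρ b)
    (f : F) :
    StarAbstract.LocalOK (B1 R τ) ⟨algebraMap R F π, algebraMap_mem_B0 π⟩ f := by
  haveI : IsNoetherianRing ↥(B0 R τ⁻¹) := hnoeth
  exact localOK_B0_of_polyCover h.inv K (hK.trans (adjoin_simple_inv τ).symm) halg huniq ρ hρ
    G c hG hloc f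

/-- **(T2 ∘ cover)** the `hstar` producer from the two polynomial covers. -/
theorem hstar_of_polyCover (h : GoodCoord π O τ) (K : IntermediateField L F) (hK : K = L⟮τ⟯)
    (hfin : FiniteDimensional K F) (hsep : Algebra.IsSeparable K F)
    (huniq : ∀ O'' : ValuationSubring F,
      O''.comap (algebraMap K F) = O.comap (algebraMap K F) → O'' = O)
    (hR : ∀ x : F, IsIntegral R x → ∃ r : R, algebraMap R F r = x)
    (hκ : ∀ y ∈ O, ∀ p : R[X], p.Monic → O.valuation (aeval y p) < 1 →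
      ∃ r : R, O.valuation (y - algebraMap R F r) < 1)
    {m : ℕ} (hm : IsUnit (m : R))
    (ρ : ↥O →+* E) (hρ : ∀ x : ↥O, ρ x = 0 ↔ O.valuation (x : F) < 1)
    {ι0 : Type*} [Fintype ι0] (G0 c0 : ι0 → R[X]) (hG0 : ∑ i, c0 i * G0 i = 1)
    (hloc0 : ∀ i, ∀ z : E, IsIntegral (resB0 h ρ).range z →
      ∃ (k : ℕ) (b : ↥(B0 R τ)), resB0 h ρ (polyToB0 R τ (G0 i)) ^ k * z = resB0 h ρ b)
    {ι1 : Type*} [Fintype ι1] (G1 c1 : ι1 → R[X]) (hG1 : ∑ i, c1 i * G1 i = 1)
    (hloc1 : ∀ i, ∀ z : E, IsIntegral (resB1 h ρ).range z →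
      ∃ (k : ℕ) (b : ↥(B1 R τ)), resB1 h ρ (polyToB1 R τ (G1 i)) ^ k * z = resB1 h ρ b)
    (f : F) (hf : O.valuation (f - 1) < 1) (hdiv : ∀ P : Place L F, (m : ℤ) ∣ P.ord f) :
    ∃ (c : L) (w : F), f = algebraMap L F c * w ^ m := by
  have halg : Algebra.IsAlgebraic K F := Algebra.IsAlgebraic.of_finite K F
  haveI := ChartsInst.isNoetherianRing_B0 h K hK hfin hsep
  haveI := ChartsInst.isNoetherianRing_B1 h K hK hfin hsep
  haveI := ChartsInst.isFractionRing_B0 h K hK halg huniq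
  haveI := ChartsInst.isFractionRing_B1 h K hK halg huniq
  exact StarTop.hstar_of_charts h K hK hfin hsep huniq hR hκ hm
    (localOK_B0_of_polyCover h K hK halg huniq ρ hρ G0 c0 hG0 hloc0)
    (localOK_B1_of_polyCover h K hK halg huniq ρ hρ G1 c1 hG1 hloc1) f hf hdiv

section CoordData

open Fermat.Agent.S18.Inst.Bundle

variable {L' : Type*} [Field L'] [CharZero L'] {A : ValuationSubring L'}
  [IsDiscreteValuationRing A] {F' : Type*} [Field F'] [Algebra L' F'] {ϖ : A}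
  {O' : ValuationSubring F'} {t : F'}

/-- **The two `LocalOK` families for the INST bundle** from the two polynomial covers. -/
theorem localOK_of_coordData (h : CoordData A ϖ O' t)
    (ρ : ↥O' →+* E) (hρ : ∀ x : ↥O', ρ x = 0 ↔ O'.valuation (x : F') < 1)
    {ι0 : Type*} [Fintype ι0] (G0 c0 : ι0 → (↥A)[X]) (hG0 : ∑ i, c0 i * G0 i = 1)
    (hloc0 : ∀ i, ∀ z : E, IsIntegral (resB0 h.good ρ).range z →
      ∃ (k : ℕ) (b : ↥(B0 ↥A t)),
        resB0 h.good ρ (polyToB0 ↥A t (G0 i)) ^ k * z = resB0 h.good ρ b)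
    {ι1 : Type*} [Fintype ι1] (G1 c1 : ι1 → (↥A)[X]) (hG1 : ∑ i, c1 i * G1 i = 1)
    (hloc1 : ∀ i, ∀ z : E, IsIntegral (resB1 h.good ρ).range z →
      ∃ (k : ℕ) (b : ↥(B1 ↥A t)),
        resB1 h.good ρ (polyToB1 ↥A t (G1 i)) ^ k * z = resB1 h.good ρ b) :
    (∀ f : F', StarAbstract.LocalOK (B0 ↥A t)
        ⟨algebraMap ↥A F' ϖ, algebraMap_mem_B0 ϖ⟩ f) ∧
    (∀ f : F', StarAbstract.LocalOK (B1 ↥A t)
        ⟨algebraMap ↥A F' ϖ, algebraMap_mem_B0 ϖ⟩ f) := by
  have hfin := h.finite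
  have hsep := h.separable
  have halg := h.algebraic
  haveI := ChartsInst.isNoetherianRing_B0 h.good L'⟮t⟯ rfl hfin hsep
  haveI := ChartsInst.isNoetherianRing_B1 h.good L'⟮t⟯ rfl hfin hsep
  exact ⟨localOK_B0_of_polyCover h.good L'⟮t⟯ rfl halg h.uniq ρ hρ G0 c0 hG0 hloc0,
    localOK_B1_of_polyCover h.good L'⟮t⟯ rfl halg h.uniq ρ hρ G1 c1 hG1 hloc1⟩

/-- **`hstar` for the INST bundle** from the two polynomial covers (= the 4th conjunct of the
top-level `Bundle`). -/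
theorem hstar_of_coordData_polyCover (h : CoordData A ϖ O' t) {m : ℕ} (hm : IsUnit (m : ↥A))
    (ρ : ↥O' →+* E) (hρ : ∀ x : ↥O', ρ x = 0 ↔ O'.valuation (x : F') < 1)
    {ι0 : Type*} [Fintype ι0] (G0 c0 : ι0 → (↥A)[X]) (hG0 : ∑ i, c0 i * G0 i = 1)
    (hloc0 : ∀ i, ∀ z : E, IsIntegral (resB0 h.good ρ).range z →
      ∃ (k : ℕ) (b : ↥(B0 ↥A t)),
        resB0 h.good ρ (polyToB0 ↥A t (G0 i)) ^ k * z = resB0 h.good ρ b)
    {ι1 : Type*} [Fintype ι1] (G1 c1 : ι1 → (↥A)[X]) (hG1 : ∑ i, c1 i * G1 i = 1)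
    (hloc1 : ∀ i, ∀ z : E, IsIntegral (resB1 h.good ρ).range z →
      ∃ (k : ℕ) (b : ↥(B1 ↥A t)),
        resB1 h.good ρ (polyToB1 ↥A t (G1 i)) ^ k * z = resB1 h.good ρ b)
    (f : F') (hf : O'.valuation (f - 1) < 1) (hdiv : ∀ P : Place L' F', (m : ℤ) ∣ P.ord f) :
    ∃ (c : L') (w : F'), f = algebraMap L' F' c * w ^ m :=
  hstar_of_polyCover h.good L'⟮t⟯ rfl h.finite h.separable h.uniq h.intClosed h.resClosed hm
    ρ hρ G0 c0 hG0 hloc0 G1 c1 hG1 hloc1 f hf hdiv

end CoordData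

end Fermat.Agent.S18.Final.Cover
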