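import Mathlib
import Fermat.Prelude.Def_AlgebraicCurve_DivisorClassGroup
import Fermat.Agent.S18.Core.StarCharts
import Fermat.Agent.S18.Core.ChartsInst
import Fermat.Agent.S18.Core.DivBridge
import Fermat.Agent.S18.Inst.Bundle

/-!
# S18, top assembly (T2): the `hstar` producer

`hstar_of_coordData` : for a function field `F ⊇ L`, a discrete valuation subring `A` of `L`, a
valuation subring `O` of `F` and a coordinate `t ∈ F` forming an `Inst.Bundle.CoordData`, if the
local condition `StarAbstract.LocalOK` holds at the closed points of both charts `B0 A t`,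
`B1 A t`, then every `f ∈ F` with `v(f - 1) < 1` whose divisor is divisible by `m` (a unit of `A`)
at every Prelude place of `F / L` is of the form `f = c * w ^ m` with `c ∈ L` a constant.

This is `Core/StarCharts.exists_eq_mul_pow` fed with the bundle, `Core/ChartsInst` (the four
instances) and `Core/DivBridge` (places ⇒ valuation-subring form of the divisibility).
-/

set_option autoImplicit false

namespace Fermat.Agent.S18.Final

open AlgebraicCurve IntermediateField
open Fermat.Agent.S18.Core.Charts Fermat.Agent.S18.Core.StarAbstract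
open Fermat.Agent.S18.Core

/-- `v(f - 1) < 1` forces `f ≠ 0`. -/
theorem ChartStar.ne_zero_of_valuation_sub_one_lt {F : Type*} [Field F] {O : ValuationSubring F} {f : F}
    (hf : O.valuation (f - 1) < 1) : f ≠ 0 := by
  rintro rfl
  rw [zero_sub, Valuation.map_neg, Valuation.map_one] at hf
  exact lt_irrefl _ hf

section

variable {L : Type*} [Field L] [CharZero L] (A : ValuationSubring L) [IsDiscreteValuationRing A]
  {F : Type*} [Field F] [Algebra L F] {π : A} {O : ValuationSubring F} {t : F}

/-- **(T2), form with the unit constant.** -/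
theorem hstar_of_coordData' (h : Inst.Bundle.CoordData A π O t)
    {m : ℕ} (hm : IsUnit (m : A))
    (f : F) (hf : O.valuation (f - 1) < 1)
    (hdiv : ∀ P : Place L F, (m : ℤ) ∣ P.ord f)
    (hloc0 : LocalOK (B0 A t) ⟨algebraMap A F π, algebraMap_mem_B0 π⟩ f)
    (hloc1 : LocalOK (B1 A t) ⟨algebraMap A F π, algebraMap_mem_B0 π⟩ f) :
    ∃ c : A, c ≠ 0 ∧ ∃ w : F, w ≠ 0 ∧ f = algebraMap A F c * w ^ m := by
  have hfin : FiniteDimensional L⟮t⟯ F := h.finite
  have hsep : Algebra.IsSeparable L⟮t⟯ F := h.separable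
  have halg : Algebra.IsAlgebraic L⟮t⟯ F := h.algebraic
  have : IsNoetherianRing (B0 A t) := ChartsInst.isNoetherianRing_B0 h.good L⟮t⟯ rfl hfin hsep
  have : IsNoetherianRing (B1 A t) := ChartsInst.isNoetherianRing_B1 h.good L⟮t⟯ rfl hfin hsep
  have : IsFractionRing (B0 A t) F := ChartsInst.isFractionRing_B0 h.good L⟮t⟯ rfl halg h.uniq
  have : IsFractionRing (B1 A t) F := ChartsInst.isFractionRing_B1 h.good L⟮t⟯ rfl halg h.uniq
  have hf0 : f ≠ 0 := ChartStar.ne_zero_of_valuation_sub_one_lt hf
  exact StarCharts.exists_eq_mul_pow h.good L⟮t⟯ rfl hfin hsep h.uniq h.intClosed h.resClosed hm hf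
    (fun W hW hπ hne hpid =>
      DivBridge.hdiv_of_forall_place hf0 hdiv W
        (DivBridge.algebraMap_mem_of_inv_mem h.good.irreducible W hW hπ) hne hpid)
    hloc0 hloc1

/-- **(T2)** the `hstar` producer: `f = c * w ^ m` with `c ∈ L`. -/
theorem hstar_of_coordData (h : Inst.Bundle.CoordData A π O t)
    {m : ℕ} (hm : IsUnit (m : A))
    (hloc0 : ∀ f : F, LocalOK (B0 A t) ⟨algebraMap A F π, algebraMap_mem_B0 π⟩ f)
    (hloc1 : ∀ f : F, LocalOK (B1 A t) ⟨algebraMap A F π, algebraMap_mem_B0 π⟩ f)
    (f : F) (hf : O.valuation (f - 1) < 1)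
    (hdiv : ∀ P : Place L F, (m : ℤ) ∣ P.ord f) :
    ∃ (c : L) (w : F), f = algebraMap L F c * w ^ m := by
  obtain ⟨c, -, w, -, hfw⟩ := hstar_of_coordData' A h hm f hf hdiv (hloc0 f) (hloc1 f)
  refine ⟨algebraMap A L c, w, ?_⟩
  rw [hfw, IsScalarTower.algebraMap_apply A L F]

end

end Fermat.Agent.S18.Final
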