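import Mathlib
import Fermat.Agent.S18.Final.CuspsGen
import Fermat.Agent.S18.Inst.Level4Final

/-!
# S18 / S37 twin at level `4 ∣ M`: Theorem N in the `LocalGen` form

General `(L, A)` (`A` a discrete valuation subring of a field `L` of characteristic zero with
residue characteristic `ℓ ∤ M`), `F = laurentBaseChange L (modularFunctionFieldFull M)`,
`t = t₄`, `ρ = Inst.Level4Final.rho4`.  From the three Kummer statements at the cusp values
`t = 0`, `t = -16`, `t = ∞` (the hypotheses of `Final/Level4Rho.bundle4_of_hloc_rho4`):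
`NormalBridge.LocalGen π n` at every maximal ideal `n ∋ π` of both charts `B0 A t`, `B1 A t`
(`Final/CuspsGen.localGen_of_coordData_cusps` with the level-4 cover).
-/

set_option autoImplicit false

open ModularCurve AlgebraicCurve Polynomial

namespace Fermat.Agent.S18.Final.Level4Gen

open Fermat.Agent.S18.Core.Charts Fermat.Agent.S18.Core Fermat.Agent.S18.Cusp
  Fermat.Agent.S18.Cusp.ChartLocalOK Fermat.Agent.S18.Inst.Bundle IsLocalRing

set_option synthInstance.maxHeartbeats 400000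

variable {L : Type*} [Field L] [Algebra ℚ L] {M : ℕ} [NeZero M] (h4 : 4 ∣ M)
  (A : ValuationSubring L) {ℓ : ℕ} [Fact ℓ.Prime] [CharP (ResidueField A) ℓ] (hℓM : ¬ ℓ ∣ M)

include h4 hℓM in
/-- `16` is a unit of `A`. -/
theorem isUnit_sixteen : IsUnit (16 : A) := by
  have hℓ16 : ¬ ℓ ∣ 16 := by
    intro h
    have hp : ℓ.Prime := Fact.out
    have h2 : ℓ ∣ 2 := by
      have : ℓ ∣ 2 ^ 4 := by norm_num; exact h
      exact hp.dvd_of_dvd_pow this
    exact hℓM (dvd_trans h2 (dvd_trans (by norm_num : 2 ∣ 4) h4))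
  have h1 : residue A (16 : A) ≠ 0 := by
    intro h0
    have h2 : ((16 : ℕ) : ResidueField A) = 0 := by
      rw [← h0]
      have : (16 : A) = ((16 : ℕ) : A) := by norm_num
      rw [this, map_natCast]
    rw [CharP.cast_eq_zero_iff (ResidueField A) ℓ] at h2
    exact hℓ16 h2
  exact (residue_ne_zero_iff_isUnit (16 : A)).mp h1

set_option maxHeartbeats 2000000 in
/-- **Theorem N at level 4, `LocalGen` form**, from the three Kummer statements. -/
theorem localGen4_of_hloc [IsDiscreteValuationRing A] {π : A} (hπ : Irreducible π)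
    (hloc_zero : ∀ z : ↥(modularFunctionFieldFullC (ResidueField A) M),
      IsIntegral (resB0 (Inst.Level4Final.coordData4 h4 A hℓM hπ).good
        (Inst.Level4Final.rho4 A hℓM)).range z →
      ∃ (k : ℕ) (b : ↥(B0 A (Inst.Level4.tEl (L := L) M h4))),
        resB0 (Inst.Level4Final.coordData4 h4 A hℓM hπ).good (Inst.Level4Final.rho4 A hℓM)
          ⟨aeval (Inst.Level4.tEl (L := L) M h4) (X + C 16 : (A)[X]), aeval_mem_B0 _⟩ ^ k * z =
          resB0 (Inst.Level4Final.coordData4 h4 A hℓM hπ).good (Inst.Level4Final.rho4 A hℓM) b)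
    (hloc_sixteen : ∀ z : ↥(modularFunctionFieldFullC (ResidueField A) M),
      IsIntegral (resB0 (Inst.Level4Final.coordData4 h4 A hℓM hπ).good
        (Inst.Level4Final.rho4 A hℓM)).range z →
      ∃ (k : ℕ) (b : ↥(B0 A (Inst.Level4.tEl (L := L) M h4))),
        resB0 (Inst.Level4Final.coordData4 h4 A hℓM hπ).good (Inst.Level4Final.rho4 A hℓM)
          ⟨aeval (Inst.Level4.tEl (L := L) M h4) (X : (A)[X]), aeval_mem_B0 _⟩ ^ k * z =
          resB0 (Inst.Level4Final.coordData4 h4 A hℓM hπ).good (Inst.Level4Final.rho4 A hℓM) b)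
    (hloc_inf : ∀ z : ↥(modularFunctionFieldFullC (ResidueField A) M),
      IsIntegral (resB1 (Inst.Level4Final.coordData4 h4 A hℓM hπ).good
        (Inst.Level4Final.rho4 A hℓM)).range z →
      ∃ (k : ℕ) (b : ↥(B1 A (Inst.Level4.tEl (L := L) M h4))),
        resB1 (Inst.Level4Final.coordData4 h4 A hℓM hπ).good (Inst.Level4Final.rho4 A hℓM)
          ⟨aeval (Inst.Level4.tEl (L := L) M h4)⁻¹ (C 16 * X + 1 : (A)[X]),
            aeval_mem_B0 _⟩ ^ k * z =
          resB1 (Inst.Level4Final.coordData4 h4 A hℓM hπ).good (Inst.Level4Final.rho4 A hℓM) b) :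
    (∀ (n : Ideal ↥(B0 A (Inst.Level4.tEl (L := L) M h4))) [n.IsMaximal],
        (⟨algebraMap A _ π, algebraMap_mem_B0 π⟩ : ↥(B0 A (Inst.Level4.tEl (L := L) M h4))) ∈ n →
        NormalBridge.LocalGen
          (⟨algebraMap A _ π, algebraMap_mem_B0 π⟩ : ↥(B0 A (Inst.Level4.tEl (L := L) M h4))) n) ∧
    (∀ (n : Ideal ↥(B1 A (Inst.Level4.tEl (L := L) M h4))) [n.IsMaximal],
        (⟨algebraMap A _ π, algebraMap_mem_B0 π⟩ : ↥(B1 A (Inst.Level4.tEl (L := L) M h4))) ∈ n →
        NormalBridge.LocalGen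
          (⟨algebraMap A _ π, algebraMap_mem_B0 π⟩ : ↥(B1 A (Inst.Level4.tEl (L := L) M h4))) n) := by
  classical
  haveI : CharZero L := algebraRat.charZero L
  obtain ⟨u16, hu16⟩ := isUnit_sixteen h4 A hℓM
  have hu : (16 : A) * ((u16⁻¹ : (A)ˣ) : A) = 1 := by
    rw [← hu16, Units.mul_inv]
  have hcover : ∑ i : Fin 2, (![C ((u16⁻¹ : (A)ˣ) : A), -C ((u16⁻¹ : (A)ˣ) : A)] :
      Fin 2 → (A)[X]) i * (![X + C 16, X] : Fin 2 → (A)[X]) i = 1 := by
    rw [Fin.sum_univ_two]
    simp only [Matrix.cons_val_zero, Matrix.cons_val_one]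
    have : C ((u16⁻¹ : (A)ˣ) : A) * (X + C 16) + -C ((u16⁻¹ : (A)ˣ) : A) * X =
        C (16 * ((u16⁻¹ : (A)ˣ) : A)) := by
      rw [map_mul]; ring
    rw [this, hu, map_one]
  have hinf : (-C 16 : (A)[X]) * X + 1 * (C 16 * X + 1) = 1 := by ring
  exact CuspsGen.localGen_of_coordData_cusps (Inst.Level4Final.coordData4 h4 A hℓM hπ)
    (Inst.Level4Final.rho4 A hℓM) (Inst.Level4Final.rho4_eq_zero_iff A hℓM)
    (fun r => Inst.Level4Final.rho4_algebraMap A hℓM r _)
    ![X + C 16, X] ![C ((u16⁻¹ : (A)ˣ) : A), -C ((u16⁻¹ : (A)ˣ) : A)] hcover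
    (fun i => by
      fin_cases i
      · exact hloc_zero
      · exact hloc_sixteen)
    (C 16 * X + 1) (-C 16) 1 hinf hloc_inf

end Fermat.Agent.S18.Final.Level4Gen
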