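import Mathlib
import Fermat.Agent.S18.Final.Star9
import Fermat.Agent.S18.Cusp.Level9CuspAll

/-!
# S18, level `9 ∣ M`: `Trans.Star A M m`, unconditional

`star9` : for `A` a valuation subring of `ℚ̄` over `ℓ`, `9 ∣ M`, `ℓ ∤ M`, `ℓ ∤ m`:
`Trans.Star A M m`.  Composition of `Final/Star9.star9_of_hloc` (helper8) with the complete
cusp layer at level 9 (`Cusp/Level9CuspAll.hloc9_g9`, `hloc9_Ginf9`) at `L := ↥L₁`,
`A := restrict A L₁`.
-/

set_option autoImplicit false
set_option linter.unusedSectionVars false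
set_option linter.unusedVariables false
set_option linter.style.haveILetI false

open ModularCurve AlgebraicCurve Polynomial IsLocalRing

namespace Fermat.Agent.S18.Final.Star9All

open Fermat.Agent.S18.Descent Fermat.Agent.S18.Trans IntermediateField

set_option synthInstance.maxHeartbeats 400000
set_option maxHeartbeats 2000000

local notation "Kb" => AlgebraicClosure ℚ

/-- `ℚ̄` is algebraic over every intermediate field. -/
theorem isAlgebraic_sub (L₁ : IntermediateField ℚ Kb) : Algebra.IsAlgebraic ↥L₁ Kb :=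
  haveI : Algebra.IsAlgebraic ℚ Kb := AlgebraicClosure.isAlgebraic ℚ
  Algebra.IsAlgebraic.tower_top (K := ℚ) ↥L₁

/-- the four Kummer statements at level 9 over a number field. -/
theorem hloc9_sub {ℓ : ℕ} [Fact ℓ.Prime] (A : ValuationSubring Kb) (L₁ : IntermediateField ℚ Kb)
    (M : ℕ) [NeZero M] (hℓM : ¬ ℓ ∣ M) (h9 : 9 ∣ M)
    [CharP (ResidueField (restrict A L₁)) ℓ] [IsDiscreteValuationRing (restrict A L₁)]
    (π : restrict A L₁) (hπ : Irreducible π) (r : restrict A L₁)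
    (hr : r ^ 2 + 9 * r + 27 = 0) :
    Final.Star9.Hloc9 (restrict A L₁) hℓM hπ h9 r := by
  haveI := isAlgebraic_sub L₁
  exact ⟨fun i => Cusp.Level9CuspAll.hloc9_g9 h9 (restrict A L₁) hℓM hπ hr i,
    Cusp.Level9CuspAll.hloc9_Ginf9 h9 (restrict A L₁) hℓM hπ⟩

/-- **`Star` at level `9 ∣ M`, unconditional.** -/
theorem star9 {ℓ : ℕ} [Fact ℓ.Prime] (A : ValuationSubring Kb) (hA : A.LiesOverPrime ℓ)
    (M m : ℕ) [NeZero M] (h9 : 9 ∣ M) (hℓM : ¬ ℓ ∣ M) (hℓm : ¬ ℓ ∣ m) : Trans.Star A M m :=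
  Final.Star9.star9_of_hloc A hA M m hℓM hℓm h9
    (fun L₁ _ _ _ π hπ r hr => hloc9_sub A L₁ M hℓM h9 π hπ r hr)

end Fermat.Agent.S18.Final.Star9All
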