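import Mathlib
import Fermat.Agent.S18.Final.StarAll
import Fermat.Agent.S18.Cusp.Level4CuspStar
import Fermat.Agent.S18.Cusp.Level9CuspH
import Fermat.Agent.S18.Descent.StarMulFinal

/-!
# S18, top of the chain: `Trans.Star A N m` for every level `N` and every `m`, `ℓ ∤ N m`

`star_all` = `StarAll.star_all_of` fed with
* `StarMulFinal.star_of_star_mul` (descent of `Star` from a multiple of the level),
* `Level4CuspStar.star4` (`ℓ` odd, auxiliary level `4 N`),
* `Level9CuspH.star9` (`ℓ = 2`, auxiliary level `9 N`).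
-/

set_option autoImplicit false

open ModularCurve

namespace Fermat.Agent.S18.Final.StarAllFinal

local notation "Kb" => AlgebraicClosure ℚ

/-- **The Kummer form `(*)_N` of S18 holds for every level `N` prime to `ℓ` and every exponent
`m` prime to `ℓ`.** -/
theorem star_all (N : ℕ) [NeZero N] {ℓ : ℕ} [Fact ℓ.Prime] (hℓN : ¬ ℓ ∣ N)
    (A : ValuationSubring Kb) (hA : A.LiesOverPrime ℓ) (m : ℕ) (hm : ¬ ℓ ∣ m) :
    Trans.Star A N m :=
  StarAll.star_all_of N hℓN A m
    (fun _ _ _ _ hNM hℓM hs => Descent.StarMulFinal.star_of_star_mul hNM hℓM A hA hm hs)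
    (fun _ M _ h4 hℓM => Cusp.Level4CuspStar.star4 A hA M m h4 hℓM hm)
    (fun _ M _ h9 hℓM => Cusp.Level9CuspH.star9 A hA M m h9 hℓM hm)

end Fermat.Agent.S18.Final.StarAllFinal
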