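import Mathlib
import Fermat.Agent.S18.Final.Level4Rho
import Fermat.Agent.S18.Final.Level9
import Fermat.Agent.S18.Trans.Top

/-!
# S18: the top assembly `star_all`, hypothesis style

`Trans.Star A N m` for every level `N`, every prime `ℓ ∤ N m` and every valuation subring `A` of
`ℚ̄` over `ℓ`, from

* `DescentHyp` : the descent `Star A M m → Star A N m` along `N ∣ M` (`ℓ ∤ M m`);
* `Hloc4` : the three Kummer statements at level `4 ∣ M` (cusp values `0, -16, ∞`), in the shape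
  of `Final/Level4Rho.bundle4_of_hloc_rho4` / `Final/Level4Gen.localGen4_of_hloc`, for a general
  discrete valuation subring of a field of characteristic zero;
* `LocalOK9` : `LocalOK` on both charts of `t₉` at level `9 ∣ M`, `ℓ = 2`
  (= the hypothesis of `Final/Level9.star9_of_localOK`).

`ℓ` odd: auxiliary level `M' = 4 N`; `ℓ = 2`: auxiliary level `M' = 9 N`; then descend.
The frozen S18 conclusion follows by `Trans.s18_of_star`.
-/

set_option autoImplicit false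
set_option linter.style.haveILetI false

open ModularCurve AlgebraicCurve Polynomial

namespace Fermat.Agent.S18.Final.StarAllHyp

open Fermat.Agent.S18.Descent Fermat.Agent.S18.Core.Charts Fermat.Agent.S18.Core
  Fermat.Agent.S18.Inst.Bundle Fermat.Agent.S18.Core.StarBundle
  Fermat.Agent.S18.Cusp.ChartLocalOK IsLocalRing

set_option synthInstance.maxHeartbeats 400000

local notation "Kb" => AlgebraicClosure ℚ

/-- The descent of `Star` along `N ∣ M` (`Descent/StarMul*.star_of_star_mul`). -/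
def DescentHyp : Prop :=
  ∀ {N M : ℕ} [NeZero N] [NeZero M], N ∣ M → ∀ {ℓ : ℕ} [Fact ℓ.Prime], ¬ ℓ ∣ M →
    ∀ (A : ValuationSubring Kb), A.LiesOverPrime ℓ → ∀ {m : ℕ}, ¬ ℓ ∣ m →
      Trans.Star A M m → Trans.Star A N m

/-- The three Kummer statements at level `4 ∣ M` for a discrete valuation subring `A` of a field
`L` of characteristic zero with residue characteristic `ℓ ∤ M` (the hypotheses of
`Final/Level4Gen.localGen4_of_hloc` and, at `(L₁, A ∩ L₁)`, of
`Final/Level4Rho.bundle4_of_hloc_rho4`). -/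
def Hloc4 {L : Type*} [Field L] [Algebra ℚ L] {M : ℕ} [NeZero M] (h4 : 4 ∣ M)
    (A : ValuationSubring L) {ℓ : ℕ} [Fact ℓ.Prime] [CharP (ResidueField A) ℓ] (hℓM : ¬ ℓ ∣ M)
    [IsDiscreteValuationRing A] {π : A} (hπ : Irreducible π) : Prop :=
  (∀ z : ↥(modularFunctionFieldFullC (ResidueField A) M),
      IsIntegral (resB0 (Inst.Level4Final.coordData4 h4 A hℓM hπ).good
        (Inst.Level4Final.rho4 A hℓM)).range z →
      ∃ (k : ℕ) (b : ↥(B0 A (Inst.Level4.tEl (L := L) M h4))),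
        resB0 (Inst.Level4Final.coordData4 h4 A hℓM hπ).good (Inst.Level4Final.rho4 A hℓM)
          ⟨aeval (Inst.Level4.tEl (L := L) M h4) (X + C 16 : (A)[X]), aeval_mem_B0 _⟩ ^ k * z =
          resB0 (Inst.Level4Final.coordData4 h4 A hℓM hπ).good (Inst.Level4Final.rho4 A hℓM) b) ∧
  (∀ z : ↥(modularFunctionFieldFullC (ResidueField A) M),
      IsIntegral (resB0 (Inst.Level4Final.coordData4 h4 A hℓM hπ).good
        (Inst.Level4Final.rho4 A hℓM)).range z →
      ∃ (k : ℕ) (b : ↥(B0 A (Inst.Level4.tEl (L := L) M h4))),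
        resB0 (Inst.Level4Final.coordData4 h4 A hℓM hπ).good (Inst.Level4Final.rho4 A hℓM)
          ⟨aeval (Inst.Level4.tEl (L := L) M h4) (X : (A)[X]), aeval_mem_B0 _⟩ ^ k * z =
          resB0 (Inst.Level4Final.coordData4 h4 A hℓM hπ).good (Inst.Level4Final.rho4 A hℓM) b) ∧
  (∀ z : ↥(modularFunctionFieldFullC (ResidueField A) M),
      IsIntegral (resB1 (Inst.Level4Final.coordData4 h4 A hℓM hπ).good
        (Inst.Level4Final.rho4 A hℓM)).range z →
      ∃ (k : ℕ) (b : ↥(B1 A (Inst.Level4.tEl (L := L) M h4))),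
        resB1 (Inst.Level4Final.coordData4 h4 A hℓM hπ).good (Inst.Level4Final.rho4 A hℓM)
          ⟨aeval (Inst.Level4.tEl (L := L) M h4)⁻¹ (C 16 * X + 1 : (A)[X]),
            aeval_mem_B0 _⟩ ^ k * z =
          resB1 (Inst.Level4Final.coordData4 h4 A hℓM hπ).good (Inst.Level4Final.rho4 A hℓM) b)

section Level4

variable {ℓ : ℕ} [Fact ℓ.Prime] (A : ValuationSubring Kb) (hA : A.LiesOverPrime ℓ)

include hA in
/-- **`Trans.Star` at level `4 ∣ M`** (`ℓ ∤ M m`) from the three Kummer statements over every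
number field. -/
theorem star4_of_hloc (M m : ℕ) [NeZero M] (h4 : 4 ∣ M) (hℓM : ¬ ℓ ∣ M) (hℓm : ¬ ℓ ∣ m)
    (H : ∀ (L₁ : IntermediateField ℚ Kb) [FiniteDimensional ℚ L₁]
      [CharP (ResidueField (restrict A L₁)) ℓ] [IsDiscreteValuationRing (restrict A L₁)]
      {π : restrict A L₁} (hπ : Irreducible π), Hloc4 h4 (restrict A L₁) hℓM hπ) :
    Trans.Star A M m := by
  refine star_of_bundle A M m ∅ (fun L₁ _ _ => ?_)
  haveI : CharP (ResidueField (restrict A L₁)) ℓ :=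
    Level4.charP_residueField_restrict A hA L₁
  haveI : IsDiscreteValuationRing (restrict A L₁) :=
    isDiscreteValuationRing_restrict_of_liesOver A (Fact.out : ℓ.Prime).ne_zero hA L₁
  obtain ⟨π, hπ⟩ := IsDiscreteValuationRing.exists_irreducible (restrict A L₁)
  obtain ⟨h0, h16, hinf⟩ := H L₁ hπ
  exact Level4Rho.bundle4_of_hloc_rho4 A hA L₁ M h4 hℓM m hℓm hπ h0 h16 hinf

end Level4

/-- The level-4 input of `star_all_of`: `Star` at every level `4 ∣ M`, `ℓ ∤ M m`. -/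
def Star4Hyp : Prop :=
  ∀ {ℓ : ℕ} [Fact ℓ.Prime] (A : ValuationSubring Kb), A.LiesOverPrime ℓ →
    ∀ (M m : ℕ) [NeZero M], 4 ∣ M → ¬ ℓ ∣ M → ¬ ℓ ∣ m → Trans.Star A M m

/-- The level-9 input of `star_all_of`: `Star` at every level `9 ∣ M`, `ℓ = 2`, `M m` odd. -/
def Star9Hyp : Prop :=
  ∀ (A : ValuationSubring Kb), A.LiesOverPrime 2 →
    ∀ (M m : ℕ) [NeZero M], 9 ∣ M → ¬ 2 ∣ M → ¬ 2 ∣ m → Trans.Star A M m

/-- `Star4Hyp` from the three Kummer statements at level 4 for general `(L, A)`. -/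
theorem star4Hyp_of_hloc
    (H : ∀ {L : Type} [Field L] [Algebra ℚ L] {M : ℕ} [NeZero M] (h4 : 4 ∣ M)
      (A : ValuationSubring L) {ℓ : ℕ} [Fact ℓ.Prime] [CharP (ResidueField A) ℓ]
      (hℓM : ¬ ℓ ∣ M) [IsDiscreteValuationRing A] {π : A} (hπ : Irreducible π),
      Hloc4 h4 A hℓM hπ) : Star4Hyp := by
  intro ℓ _ A hA M m _ h4 hℓM hℓm
  exact star4_of_hloc A hA M m h4 hℓM hℓm (fun L₁ _ _ _ π hπ => H h4 (restrict A L₁) hℓM hπ)

/-- `Star9Hyp` from `LocalOK` on both charts of `t₉` over every number field containing a root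
of `X² + 9 X + 27` (the hypothesis of `Final/Level9.star9_of_localOK`). -/
theorem star9Hyp_of_localOK
    (H : ∀ (A : ValuationSubring Kb), A.LiesOverPrime 2 → ∀ (M : ℕ) [NeZero M] (h9 : 9 ∣ M),
      ¬ 2 ∣ M → ∀ (L₁ : IntermediateField ℚ Kb) [FiniteDimensional ℚ L₁] (ρ₁ : L₁),
      ρ₁ ^ 2 + 9 * ρ₁ + 27 = 0 →
      ∀ (π : restrict A L₁), Irreducible π →
      (∀ f : laurentBaseChange L₁ (modularFunctionFieldFull M),
        StarAbstract.LocalOK (B0 (restrict A L₁) (Inst.Level9.t9el (L := L₁) M h9))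
          ⟨algebraMap (restrict A L₁) (laurentBaseChange L₁ (modularFunctionFieldFull M)) π,
            algebraMap_mem_B0 π⟩ f) ∧
      (∀ f : laurentBaseChange L₁ (modularFunctionFieldFull M),
        StarAbstract.LocalOK (B1 (restrict A L₁) (Inst.Level9.t9el (L := L₁) M h9))
          ⟨algebraMap (restrict A L₁) (laurentBaseChange L₁ (modularFunctionFieldFull M)) π,
            algebraMap_mem_B0 π⟩ f)) : Star9Hyp := by
  intro A hA M m _ h9 h2M h2m
  haveI : Fact (Nat.Prime 2) := ⟨Nat.prime_two⟩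
  obtain ⟨ρ, hρ⟩ := Level9Aux.exists_rho
  exact Level9.star9_of_localOK A hA M m h9 h2M h2m hρ
    (fun L₁ _ ρ₁ hρ₁ _ π hπ => H A hA M h9 h2M L₁ ρ₁ hρ₁ π hπ)

/-- **The top assembly**: `Star A N m` for every `N`, `ℓ ∤ N m`, `A` over `ℓ`. -/
theorem star_all_of (hdesc : DescentHyp) (H4 : Star4Hyp) (H9 : Star9Hyp)
    {ℓ : ℕ} [Fact ℓ.Prime] (A : ValuationSubring Kb) (hA : A.LiesOverPrime ℓ)
    (N m : ℕ) [NeZero N] (hℓN : ¬ ℓ ∣ N) (hℓm : ¬ ℓ ∣ m) : Trans.Star A N m := by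
  have hp : ℓ.Prime := Fact.out
  by_cases h2 : ℓ = 2
  · subst h2
    haveI : NeZero (9 * N) := ⟨Nat.mul_ne_zero (by norm_num) (NeZero.ne N)⟩
    have h2M : ¬ 2 ∣ 9 * N := by
      intro h
      rcases (Nat.Prime.dvd_mul Nat.prime_two).mp h with h | h
      · exact absurd h (by norm_num)
      · exact hℓN h
    exact hdesc (Dvd.intro_left 9 rfl) h2M A hA hℓm (H9 A hA (9 * N) m (Dvd.intro N rfl) h2M hℓm)
  · haveI : NeZero (4 * N) := ⟨Nat.mul_ne_zero (by norm_num) (NeZero.ne N)⟩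
    have hℓM : ¬ ℓ ∣ 4 * N := by
      intro h
      rcases hp.dvd_mul.mp h with h | h
      · have : ℓ ∣ 2 := by
          have h' : ℓ ∣ 2 ^ 2 := by norm_num; exact h
          exact hp.dvd_of_dvd_pow h'
        exact h2 ((Nat.prime_dvd_prime_iff_eq hp Nat.prime_two).mp this)
      · exact hℓN h
    exact hdesc (Dvd.intro_left 4 rfl) hℓM A hA hℓm (H4 A hA (4 * N) m (Dvd.intro N rfl) hℓM hℓm)

/-- **The frozen S18 conclusion** from `star_all`. -/
theorem s18_of_star_all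
    (hstar : ∀ {ℓ : ℕ} [Fact ℓ.Prime] (A : ValuationSubring Kb), A.LiesOverPrime ℓ →
      ∀ (N m : ℕ) [NeZero N], ¬ ℓ ∣ N → ¬ ℓ ∣ m → Trans.Star A N m)
    (N : ℕ) [NeZero N] {ℓ : ℕ} [Fact ℓ.Prime] (hℓN : ¬ ℓ ∣ N)
    (A : ValuationSubring Kb) (hA : A.LiesOverPrime ℓ)
    (h : ModularCurve.ReductionInputsModL A N) (m : ℕ) (hm : ¬ ℓ ∣ m) (z : ModularCurve.JZero N)
    (hmz : m • z = 0) (hz : ModularCurve.reductionModL A N z = 0) : z = 0 :=
  Trans.s18_of_star N hℓN A hA h m hm (hstar A hA N m hℓN hm) z hmz hz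

end Fermat.Agent.S18.Final.StarAllHyp
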