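import Mathlib
import Fermat.Agent.S18.Descent.StarOfDVR
import Fermat.Agent.S18.ConstExt.Place
import Fermat.Agent.S18.Core.StarTop

/-!
# S18, top assembly (T1): `Trans.Star` from the per-number-field bundle

`Bundle A L₁ N m` : over the number field `L₁ ⊆ ℚ̄`, with `R₁ := A ∩ L₁`,
`F := laurentBaseChange L₁ (modularFunctionFieldFull N)`: a valuation subring `O` of `F` with a
residue map `ρ : O →+* κ₁((q))` which on `R₁`-integral series is the coefficientwise reduction,
whose kernel is `{v < 1}`, whose range contains `F_{N,κ₁}`, and `hstar`: every `f ∈ F` with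
`v(f - 1) < 1` whose divisor is divisible by `m` is `c * w ^ m`.

`star_of_bundle` : if `Bundle A L₁ N m` holds for every number field `L₁ ⊇ T0`, then
`Trans.Star A N m`.  Proof: `Descent.star_of_dvr` (block F) + the abstract core
`Core/StarTop.exists_eq_mul_pow_mul_of_hstar` + `ConstExt` (placewise divisibility descends to
`L₁`, base change `up` back to `ℚ̄`).
-/

set_option autoImplicit false

open HahnSeries ModularCurve AlgebraicCurve
open Fermat.Agent.S18.Descent

namespace Fermat.Agent.S18.Final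

set_option synthInstance.maxHeartbeats 400000

local notation "Kb" => AlgebraicClosure ℚ

/-- The per-number-field bundle consumed by `star_of_bundle`. -/
def Bundle (A : ValuationSubring Kb) (L₁ : IntermediateField ℚ Kb) (N m : ℕ) : Prop :=
  ∃ (O : ValuationSubring (laurentBaseChange L₁ (modularFunctionFieldFull N)))
    (ρ : O →+* LaurentSeries (IsLocalRing.ResidueField (restrict A L₁))),
    (∀ (z : LaurentSeries (restrict A L₁))
        (h : coeffMap (restrict A L₁).subtype z ∈
          laurentBaseChange L₁ (modularFunctionFieldFull N)),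
        ∃ hO : (⟨_, h⟩ : laurentBaseChange L₁ (modularFunctionFieldFull N)) ∈ O,
          ρ ⟨⟨_, h⟩, hO⟩ = coeffMap (IsLocalRing.residue (restrict A L₁)) z) ∧
    (∀ x : O, ρ x = 0 ↔
      O.valuation (x : laurentBaseChange L₁ (modularFunctionFieldFull N)) < 1) ∧
    (∀ g ∈ modularFunctionFieldFullC (IsLocalRing.ResidueField (restrict A L₁)) N,
      ∃ x : O, ρ x = g) ∧
    (∀ f : laurentBaseChange L₁ (modularFunctionFieldFull N), O.valuation (f - 1) < 1 →
      (∀ P : Place L₁ (laurentBaseChange L₁ (modularFunctionFieldFull N)), (m : ℤ) ∣ P.ord f) →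
      ∃ (c : L₁) (w : laurentBaseChange L₁ (modularFunctionFieldFull N)),
        f = algebraMap L₁ (laurentBaseChange L₁ (modularFunctionFieldFull N)) c * w ^ m)

namespace StarDVR

section Abstract

variable {L F : Type*} [Field L] [Field F] [Algebra L F]

/-- The abstract core of (T1) without the hypothesis `0 < m`: the residual `m`-th root is given
with nonzero reduction instead. -/
theorem core (O : ValuationSubring F) {m : ℕ}
    {E : Type*} [CommRing E] (ρ : O →+* E)
    (hρ : ∀ x : O, ρ x = 0 ↔ O.valuation (x : F) < 1)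
    {x₁ x₂ : F} (hx₁ : x₁ ∈ O) (hx₂ : x₂ ∈ O)
    (hx₁0 : ρ ⟨x₁, hx₁⟩ ≠ 0) (hx₂0 : ρ ⟨x₂, hx₂⟩ ≠ 0)
    {ct : L} (hctO : algebraMap L F ct ∈ O) {gt : F} (hgt : gt ∈ O)
    (hres : ρ ⟨x₁, hx₁⟩ = ρ ⟨algebraMap L F ct, hctO⟩ * ρ ⟨gt, hgt⟩ ^ m * ρ ⟨x₂, hx₂⟩)
    (hdiv : ∀ P : Place L F, (m : ℤ) ∣ P.ord x₁ - P.ord x₂)
    (hstar : ∀ f : F, O.valuation (f - 1) < 1 → (∀ P : Place L F, (m : ℤ) ∣ P.ord f) →
      ∃ (c : L) (w : F), f = algebraMap L F c * w ^ m) :
    ∃ (c : L) (w : F), x₁ = algebraMap L F c * w ^ m * x₂ := by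
  rcases Nat.eq_zero_or_pos m with hm0 | hm
  · -- `m = 0`: the same argument without the root
    subst hm0
    have hval1 : ∀ {x : F} (hx : x ∈ O), ρ ⟨x, hx⟩ ≠ 0 → O.valuation x = 1 := by
      intro x hx hne
      have hle : O.valuation x ≤ 1 := (O.valuation_le_one_iff x).2 hx
      rcases lt_or_eq_of_le hle with hlt | heq
      · exact absurd ((hρ ⟨x, hx⟩).2 hlt) hne
      · exact heq
    have hx₁v : O.valuation x₁ = 1 := hval1 hx₁ hx₁0
    have hx₂v : O.valuation x₂ = 1 := hval1 hx₂ hx₂0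
    have hct0' : ρ ⟨algebraMap L F ct, hctO⟩ ≠ 0 := by
      intro h0
      apply hx₁0
      rw [hres, h0, zero_mul, zero_mul]
    have hctv : O.valuation (algebraMap L F ct) = 1 := hval1 hctO hct0'
    have hx₂ne : x₂ ≠ 0 := by
      rintro rfl
      simp at hx₂v
    have hx₁ne : x₁ ≠ 0 := by
      rintro rfl
      simp at hx₁v
    have hctne : algebraMap L F ct ≠ 0 := by
      intro h0
      rw [h0] at hctv
      simp at hctv
    have hct0 : ct ≠ 0 := by
      rintro rfl
      exact hctne (map_zero _)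
    set d : F := algebraMap L F ct * x₂ with hd
    have hdne : d ≠ 0 := mul_ne_zero hctne hx₂ne
    have hdv : O.valuation d = 1 := by
      rw [hd, map_mul, hctv, hx₂v, one_mul]
    have hdO : d ∈ O := (O.valuation_le_one_iff _).1 hdv.le
    set f : F := x₁ / d with hf
    have hfv : O.valuation (f - 1) < 1 := by
      have h1 : f - 1 = (x₁ - d) / d := by
        rw [hf]; field_simp
      have h2 : ρ ⟨x₁ - d, O.sub_mem hx₁ hdO⟩ = 0 := by
        have e1 : (⟨x₁ - d, O.sub_mem hx₁ hdO⟩ : O) = ⟨x₁, hx₁⟩ -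
            ⟨algebraMap L F ct, hctO⟩ * ⟨x₂, hx₂⟩ := by
          apply Subtype.ext
          simp [hd]
        rw [e1, map_sub, map_mul, hres, pow_zero, mul_one, sub_self]
      have h3 : O.valuation (x₁ - d) < 1 := (hρ _).1 h2
      rw [h1, map_div₀, hdv, div_one]
      exact h3
    have hdivf : ∀ P : Place L F, ((0 : ℕ) : ℤ) ∣ P.ord f := by
      intro P
      have e1 : P.ord f = P.ord x₁ - P.ord x₂ := by
        rw [hf, div_eq_mul_inv, P.ord_mul hx₁ne (inv_ne_zero hdne), P.ord_inv, hd,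
          P.ord_mul hctne hx₂ne, Core.StarTop.ord_algebraMap P hct0]
        ring
      rw [e1]
      exact hdiv P
    obtain ⟨c, w, hfw⟩ := hstar f hfv hdivf
    refine ⟨c * ct, 1, ?_⟩
    have : x₁ = f * d := by rw [hf]; field_simp
    rw [this, hfw, hd, map_mul, pow_zero, pow_zero]
    ring
  · obtain ⟨c, w, -, -, h⟩ := Core.StarTop.exists_eq_mul_pow_mul_of_hstar O hm ρ hρ hx₁ hx₂
      hx₁0 hx₂0 hctO hgt hres hdiv hstar
    exact ⟨c, w, h⟩

end Abstract

section Concrete

variable (A : ValuationSubring Kb) (L₁ : IntermediateField ℚ Kb) (N : ℕ)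

/-- the base change `up` of an `A ∩ L₁`-integral series is the `A`-integral series. -/
theorem coeffMap_algebraMap_subtype (z : LaurentSeries (restrict A L₁)) :
    coeffMap (algebraMap L₁ Kb) (coeffMap (restrict A L₁).subtype z) =
      coeffMap A.subtype (coeffMap (restrictIncl A L₁) z) := by
  rw [coeffMap_coeffMap, coeffMap_coeffMap, subtype_comp_restrictIncl]

theorem C_eq_algebraMap' {L : Type*} [Field L] (c : L) :
    (HahnSeries.C c : LaurentSeries L) = algebraMap L (LaurentSeries L) c := by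
  rw [algebraMap_laurentSeries_eq_single]
  rfl

/-- the reduction of `z` is nonzero as soon as that of its image over `A` is. -/
theorem red_ne_zero {z : LaurentSeries (restrict A L₁)} {y : LaurentSeries A}
    (hz : coeffMap (restrictIncl A L₁) z = y)
    (hy : coeffMap (IsLocalRing.residue A) y ≠ 0) :
    coeffMap (IsLocalRing.residue (restrict A L₁)) z ≠ 0 := by
  intro h0
  apply hy
  rw [← hz, ← red_eq, h0, map_zero]

end Concrete

end StarDVR

open StarDVR in
/-- **(T1)** `Trans.Star A N m` from the bundles over all number fields containing `T0`. -/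
theorem star_of_bundle (A : ValuationSubring Kb) (N m : ℕ) (T0 : Finset Kb)
    (H : ∀ (L₁ : IntermediateField ℚ Kb) [FiniteDimensional ℚ L₁],
      (↑T0 : Set Kb) ⊆ (L₁ : Set Kb) → Bundle A L₁ N m) :
    Trans.Star A N m := by
  refine star_of_dvr A N m
    (fun y₁ y₂ h₁ h₂ hr₁ hr₂ hne₁ hne₂ hdiv c g hg hcg => ⟨T0, fun L₁ _ hT D => ?_⟩)
  obtain ⟨O, ρ, hint, hker, hrange, hstar⟩ := H L₁ hT
  have halgQ : Algebra.IsAlgebraic ℚ Kb := AlgebraicClosure.isAlgebraic ℚ
  have halg : Algebra.IsAlgebraic L₁ Kb := Algebra.IsAlgebraic.tower_top (K := ℚ) L₁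
  -- the two functions over `L₁`
  obtain ⟨hO₁, hρ₁⟩ := hint D.z₁ D.mem₁
  obtain ⟨hO₂, hρ₂⟩ := hint D.z₂ D.mem₂
  have hz₁0 : coeffMap (IsLocalRing.residue (restrict A L₁)) D.z₁ ≠ 0 :=
    red_ne_zero A L₁ D.incl₁ hne₁
  have hz₂0 : coeffMap (IsLocalRing.residue (restrict A L₁)) D.z₂ ≠ 0 :=
    red_ne_zero A L₁ D.incl₂ hne₂
  -- lifts of the residual constant and of the residual root
  obtain ⟨c₀, hc₀⟩ := IsLocalRing.residue_surjective (R := restrict A L₁) D.c₁
  obtain ⟨g₀, hg₀⟩ := hrange D.g₁ D.g₁_mem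
  -- the constant as an integral series
  have hCmem : coeffMap (restrict A L₁).subtype (HahnSeries.C c₀ : LaurentSeries (restrict A L₁))
      ∈ laurentBaseChange L₁ (modularFunctionFieldFull N) := by
    rw [coeffMap_C, C_eq_algebraMap']
    exact (laurentBaseChange L₁ (modularFunctionFieldFull N)).algebraMap_mem _
  obtain ⟨hOc, hρc⟩ := hint (HahnSeries.C c₀) hCmem
  have hceq : (⟨_, hCmem⟩ : laurentBaseChange L₁ (modularFunctionFieldFull N)) =
      algebraMap L₁ (laurentBaseChange L₁ (modularFunctionFieldFull N)) (c₀ : L₁) := by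
    apply Subtype.ext
    rw [IntermediateField.coe_algebraMap_apply, ← C_eq_algebraMap']
    exact coeffMap_C _ c₀
  have hctO : algebraMap L₁ (laurentBaseChange L₁ (modularFunctionFieldFull N)) (c₀ : L₁) ∈ O := by
    rw [← hceq]
    exact hOc
  have hρct : ρ ⟨algebraMap L₁ (laurentBaseChange L₁ (modularFunctionFieldFull N)) (c₀ : L₁),
      hctO⟩ = HahnSeries.C D.c₁ := by
    have e1 : (⟨algebraMap L₁ (laurentBaseChange L₁ (modularFunctionFieldFull N)) (c₀ : L₁),
        hctO⟩ : O) = ⟨⟨_, hCmem⟩, hOc⟩ := Subtype.ext hceq.symm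
    rw [e1, hρc, coeffMap_C, hc₀]
  -- the residual identity
  have hres : ρ ⟨⟨_, D.mem₁⟩, hO₁⟩ =
      ρ ⟨algebraMap L₁ (laurentBaseChange L₁ (modularFunctionFieldFull N)) (c₀ : L₁), hctO⟩ *
        ρ ⟨(g₀ : laurentBaseChange L₁ (modularFunctionFieldFull N)), g₀.2⟩ ^ m *
        ρ ⟨⟨_, D.mem₂⟩, hO₂⟩ := by
    have e1 : (⟨(g₀ : laurentBaseChange L₁ (modularFunctionFieldFull N)), g₀.2⟩ : O) = g₀ := rfl
    rw [hρ₁, hρ₂, hρct, e1, hg₀]
    exact D.hres
  -- placewise divisibility over `L₁`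
  have hup₁ : ConstExt.up (K := Kb) (modularFunctionFieldFull N)
      (⟨_, D.mem₁⟩ : laurentBaseChange L₁ (modularFunctionFieldFull N)) =
      (⟨coeffMap A.subtype y₁, h₁⟩ : modularFunctionFieldBar N) := by
    apply Subtype.ext
    rw [ConstExt.coe_up]
    change coeffMap (algebraMap L₁ Kb) (coeffMap (restrict A L₁).subtype D.z₁) = _
    rw [coeffMap_algebraMap_subtype, D.incl₁]
  have hup₂ : ConstExt.up (K := Kb) (modularFunctionFieldFull N)
      (⟨_, D.mem₂⟩ : laurentBaseChange L₁ (modularFunctionFieldFull N)) =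
      (⟨coeffMap A.subtype y₂, h₂⟩ : modularFunctionFieldBar N) := by
    apply Subtype.ext
    rw [ConstExt.coe_up]
    change coeffMap (algebraMap L₁ Kb) (coeffMap (restrict A L₁).subtype D.z₂) = _
    rw [coeffMap_algebraMap_subtype, D.incl₂]
  have hdivL : ∀ P : Place L₁ (laurentBaseChange L₁ (modularFunctionFieldFull N)),
      (m : ℤ) ∣ P.ord (⟨_, D.mem₁⟩ : laurentBaseChange L₁ (modularFunctionFieldFull N)) -
        P.ord (⟨_, D.mem₂⟩ : laurentBaseChange L₁ (modularFunctionFieldFull N)) := by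
    intro P
    refine ConstExt.dvd_ord_sub_of_forall_place (K := Kb) (modularFunctionFieldFull N) (m : ℤ)
      _ _ (fun P' => ?_) P
    rw [hup₁, hup₂]
    exact hdiv P'
  -- the abstract core
  obtain ⟨c', w, hcw⟩ := core O ρ hker hO₁ hO₂ (by rw [hρ₁]; exact hz₁0) (by rw [hρ₂]; exact hz₂0)
    hctO g₀.2 hres hdivL hstar
  -- back to `ℚ̄`
  refine ⟨algebraMap L₁ Kb c',
    coeffMap (algebraMap L₁ Kb) (w : LaurentSeries L₁), ConstExt.coeffMap_mem_up w.2, ?_⟩
  have h1 := congrArg (fun x : laurentBaseChange L₁ (modularFunctionFieldFull N) =>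
    coeffMap (algebraMap L₁ Kb) (x : LaurentSeries L₁)) hcw
  simp only at h1
  rw [coeffMap_algebraMap_subtype, D.incl₁] at h1
  rw [h1]
  push_cast
  rw [map_mul, map_mul, map_pow, coeffMap_algebraMap_subtype, D.incl₂,
    ← C_eq_algebraMap', coeffMap_C]

end Fermat.Agent.S18.Final
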